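import Fermat.Agent.S53.Defs
import Fermat.Agent.S57.PowerSeries
import Fermat.Prelude.Thm_IsAdicComplete_of_module_finite

/-!
# Abstract pro-representability, part 1: test algebras and good ideals

We work in the polynomial ring `Pol = MvPolynomial X 𝒪`.  The augmentation ideal `augIdeal` is the
kernel of `Pol → k`, `X_x ↦ residue (ξ₀ x)`.  An ideal `J` is *good* if `augIdeal ^ n ≤ J ≤ augIdeal`
and `Pol ⧸ J` is finite; then `Pol ⧸ J` is an Artinian test algebra.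
-/

set_option autoImplicit false
set_option linter.style.haveILetI false
set_option linter.unusedSectionVars false

open IsLocalRing GaloisRep

namespace Fermat.Agent.S53

section TestAlgebra

variable {𝒪 : Type} [CommRing 𝒪] [IsLocalRing 𝒪]
variable {A : Type} [CommRing A] [IsLocalRing A] [Algebra 𝒪 A]

theorem exists_pow_maximalIdeal_eq_bot_of_test (hA : IsArtinianTestAlgebra 𝒪 A) :
    ∃ n : ℕ, maximalIdeal A ^ n = ⊥ := by
  haveI := hA.isArtinian
  have h := IsArtinianRing.isNilpotent_jacobson_bot (R := A)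
  rw [IsLocalRing.jacobson_eq_maximalIdeal ⊥ bot_ne_top] at h
  exact h

theorem residueField_map_surjective_of_test (hA : IsArtinianTestAlgebra 𝒪 A) :
    haveI := hA.isLocalHom
    Function.Surjective (ResidueField.map (algebraMap 𝒪 A)) := by
  haveI := hA.isLocalHom
  intro y
  obtain ⟨a, ha⟩ := hA.residue_surjective y
  exact ⟨residue 𝒪 a, by rw [ResidueField.map_residue]; exact ha⟩

theorem finite_of_test [Finite (ResidueField 𝒪)] (hA : IsArtinianTestAlgebra 𝒪 A) : Finite A := by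
  haveI := hA.isLocalHom
  haveI := hA.isArtinian
  haveI : Finite (ResidueField A) :=
    Finite.of_surjective _ (residueField_map_surjective_of_test hA)
  haveI : Finite (A ⧸ maximalIdeal A) := ‹Finite (ResidueField A)›
  obtain ⟨n, hn⟩ := exists_pow_maximalIdeal_eq_bot_of_test hA
  have hfg : (maximalIdeal A).FG := (isNoetherianRing_iff_ideal_fg A).mp inferInstance _
  haveI : Finite (A ⧸ maximalIdeal A ^ n) := Ideal.finite_quotient_pow hfg n
  rw [hn] at this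
  exact Finite.of_equiv _ (RingEquiv.quotientBot A).toEquiv

/-- The residue field of `𝒪` is an Artinian test algebra. -/
theorem isTestAlgebra_residueField_A : IsArtinianTestAlgebra 𝒪 (ResidueField 𝒪) where
  isLocalHom := by
    constructor
    intro a ha
    by_contra h
    have h0 : residue 𝒪 a = 0 := (residue_eq_zero_iff a).mpr ((mem_maximalIdeal a).mpr h)
    have : algebraMap 𝒪 (ResidueField 𝒪) a = 0 := h0
    rw [this] at ha
    exact not_isUnit_zero ha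
  residue_surjective := by
    intro y
    obtain ⟨z, rfl⟩ := residue_surjective (R := ResidueField 𝒪) y
    obtain ⟨a, rfl⟩ := residue_surjective (R := 𝒪) z
    exact ⟨a, rfl⟩
  isArtinian := inferInstance

end TestAlgebra

section Aug

variable (𝒪 : Type) [CommRing 𝒪] [IsLocalRing 𝒪] (X : Type) (ξ₀ : X → 𝒪)

/-- The augmentation `Pol → k`. -/
noncomputable def aug : MvPolynomial X 𝒪 →ₐ[𝒪] ResidueField 𝒪 :=
  MvPolynomial.aeval (fun x => residue 𝒪 (ξ₀ x))

/-- The augmentation ideal. -/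
noncomputable def augIdeal : Ideal (MvPolynomial X 𝒪) := RingHom.ker (aug 𝒪 X ξ₀)

variable {𝒪 X ξ₀}

theorem mem_augIdeal_iff {p : MvPolynomial X 𝒪} : p ∈ augIdeal 𝒪 X ξ₀ ↔ aug 𝒪 X ξ₀ p = 0 :=
  RingHom.mem_ker

theorem aug_C (a : 𝒪) : aug 𝒪 X ξ₀ (MvPolynomial.C a) = residue 𝒪 a := by
  rw [aug, MvPolynomial.aeval_C]; rfl

theorem aug_X (x : X) : aug 𝒪 X ξ₀ (MvPolynomial.X x) = residue 𝒪 (ξ₀ x) := by
  rw [aug, MvPolynomial.aeval_X]

theorem aug_surjective : Function.Surjective (aug 𝒪 X ξ₀) := by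
  intro y
  obtain ⟨a, rfl⟩ := residue_surjective (R := 𝒪) y
  exact ⟨MvPolynomial.C a, aug_C a⟩

instance augIdeal_isMaximal : (augIdeal 𝒪 X ξ₀).IsMaximal :=
  RingHom.ker_isMaximal_of_surjective _ aug_surjective

theorem augIdeal_ne_top : augIdeal 𝒪 X ξ₀ ≠ ⊤ := augIdeal_isMaximal.ne_top

theorem C_mem_augIdeal_iff {a : 𝒪} :
    MvPolynomial.C a ∈ augIdeal 𝒪 X ξ₀ ↔ a ∈ maximalIdeal 𝒪 := by
  rw [mem_augIdeal_iff, aug_C, residue_eq_zero_iff]

theorem X_sub_C_mem_augIdeal (x : X) :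
    MvPolynomial.X x - MvPolynomial.C (ξ₀ x) ∈ augIdeal 𝒪 X ξ₀ := by
  rw [mem_augIdeal_iff, map_sub, aug_C, aug_X, sub_self]

/-- Every polynomial is congruent to a constant modulo the augmentation ideal. -/
theorem exists_sub_C_mem_augIdeal (p : MvPolynomial X 𝒪) :
    ∃ a : 𝒪, p - MvPolynomial.C a ∈ augIdeal 𝒪 X ξ₀ := by
  obtain ⟨a, ha⟩ := residue_surjective (R := 𝒪) (aug 𝒪 X ξ₀ p)
  exact ⟨a, by rw [mem_augIdeal_iff, map_sub, aug_C, ha, sub_self]⟩

section Eval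

variable {A : Type} [CommRing A] [IsLocalRing A] [Algebra 𝒪 A] [IsLocalHom (algebraMap 𝒪 A)]

/-- Key compatibility: if `ξ` reduces to `ξ₀`, then the residue of `aeval ξ p` is the image of the
augmentation of `p`. -/
theorem residue_aeval_eq {ξ : X → A}
    (hξ : ∀ x, ξ x - algebraMap 𝒪 A (ξ₀ x) ∈ maximalIdeal A) (p : MvPolynomial X 𝒪) :
    residue A (MvPolynomial.aeval ξ p) = ResidueField.map (algebraMap 𝒪 A) (aug 𝒪 X ξ₀ p) := by
  have h : (residue A).comp (MvPolynomial.aeval ξ : MvPolynomial X 𝒪 →ₐ[𝒪] A).toRingHom =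
      (ResidueField.map (algebraMap 𝒪 A)).comp (aug 𝒪 X ξ₀).toRingHom := by
    apply MvPolynomial.ringHom_ext
    · intro a
      simp only [RingHom.coe_comp, Function.comp_apply, AlgHom.toRingHom_eq_coe, RingHom.coe_coe]
      rw [aug_C, ResidueField.map_residue, MvPolynomial.aeval_C]
    · intro x
      simp only [RingHom.coe_comp, Function.comp_apply, AlgHom.toRingHom_eq_coe, RingHom.coe_coe]
      rw [aug_X, ResidueField.map_residue, MvPolynomial.aeval_X, ← sub_eq_zero, ← map_sub,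
        residue_eq_zero_iff]
      exact hξ x
  exact congrArg (fun f => f p) h

theorem aeval_mem_maximalIdeal_iff {ξ : X → A}
    (hξ : ∀ x, ξ x - algebraMap 𝒪 A (ξ₀ x) ∈ maximalIdeal A) (p : MvPolynomial X 𝒪) :
    MvPolynomial.aeval ξ p ∈ maximalIdeal A ↔ p ∈ augIdeal 𝒪 X ξ₀ := by
  rw [← residue_eq_zero_iff, residue_aeval_eq hξ, mem_augIdeal_iff,
    map_eq_zero_iff _ (ResidueField.map (algebraMap 𝒪 A)).injective]

theorem ker_aeval_le_augIdeal {ξ : X → A}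
    (hξ : ∀ x, ξ x - algebraMap 𝒪 A (ξ₀ x) ∈ maximalIdeal A) :
    RingHom.ker (MvPolynomial.aeval ξ : MvPolynomial X 𝒪 →ₐ[𝒪] A) ≤ augIdeal 𝒪 X ξ₀ := by
  intro p hp
  rw [← aeval_mem_maximalIdeal_iff hξ, RingHom.mem_ker.mp hp]
  exact zero_mem _

theorem map_augIdeal_le {ξ : X → A}
    (hξ : ∀ x, ξ x - algebraMap 𝒪 A (ξ₀ x) ∈ maximalIdeal A) :
    (augIdeal 𝒪 X ξ₀).map (MvPolynomial.aeval ξ : MvPolynomial X 𝒪 →ₐ[𝒪] A) ≤ maximalIdeal A := by
  rw [Ideal.map_le_iff_le_comap]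
  intro p hp
  exact (aeval_mem_maximalIdeal_iff hξ p).mpr hp

theorem augIdeal_pow_le_ker_aeval {ξ : X → A}
    (hξ : ∀ x, ξ x - algebraMap 𝒪 A (ξ₀ x) ∈ maximalIdeal A) {n : ℕ}
    (hn : maximalIdeal A ^ n = ⊥) :
    augIdeal 𝒪 X ξ₀ ^ n ≤ RingHom.ker (MvPolynomial.aeval ξ : MvPolynomial X 𝒪 →ₐ[𝒪] A) := by
  have h1 : (augIdeal 𝒪 X ξ₀ ^ n).map (MvPolynomial.aeval ξ : MvPolynomial X 𝒪 →ₐ[𝒪] A) ≤ ⊥ := by
    rw [Ideal.map_pow, ← hn]
    exact Ideal.pow_right_mono (map_augIdeal_le hξ) n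
  intro p hp
  rw [RingHom.mem_ker]
  have := h1 (Ideal.mem_map_of_mem _ hp)
  simpa using this

end Eval

end Aug

section Good

variable {𝒪 : Type} [CommRing 𝒪] [IsLocalRing 𝒪] {X : Type} {ξ₀ : X → 𝒪}

/-- An ideal `J` of the polynomial ring is good if `augIdeal ^ n ≤ J ≤ augIdeal` for some `n`
and the quotient is finite. -/
structure Good (ξ₀ : X → 𝒪) (J : Ideal (MvPolynomial X 𝒪)) : Prop where
  le : J ≤ augIdeal 𝒪 X ξ₀
  pow_le : ∃ n : ℕ, augIdeal 𝒪 X ξ₀ ^ n ≤ J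
  finite : Finite (MvPolynomial X 𝒪 ⧸ J)

variable {J : Ideal (MvPolynomial X 𝒪)}

theorem Good.ne_top (h : Good ξ₀ J) : J ≠ ⊤ := fun hJ =>
  augIdeal_ne_top (top_le_iff.mp (hJ ▸ h.le))

theorem Good.isUnit_mk_of_notMem (h : Good ξ₀ J) {p : MvPolynomial X 𝒪}
    (hp : p ∉ augIdeal 𝒪 X ξ₀) : IsUnit (Ideal.Quotient.mk J p) := by
  obtain ⟨n, hn⟩ := h.pow_le
  obtain ⟨q, i, hi, hqi⟩ := augIdeal_isMaximal.exists_inv hp
  -- `q * p = 1 - i` and `i` is nilpotent modulo `J`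
  have hnil : IsNilpotent (Ideal.Quotient.mk J (-i)) := by
    refine ⟨n, ?_⟩
    rw [← map_pow, Ideal.Quotient.eq_zero_iff_mem]
    exact hn (Ideal.pow_mem_pow (neg_mem hi) n)
  have hu : IsUnit (Ideal.Quotient.mk J (q * p)) := by
    have : q * p = 1 + -i := by rw [← hqi]; ring
    rw [this, map_add, map_one]
    exact hnil.isUnit_one_add
  rw [map_mul] at hu
  exact isUnit_of_mul_isUnit_right hu

theorem Good.isLocalRing (h : Good ξ₀ J) : IsLocalRing (MvPolynomial X 𝒪 ⧸ J) := by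
  haveI : Nontrivial (MvPolynomial X 𝒪 ⧸ J) := Ideal.Quotient.nontrivial_iff.mpr h.ne_top
  apply IsLocalRing.of_isUnit_or_isUnit_one_sub_self
  intro a
  obtain ⟨p, rfl⟩ := Ideal.Quotient.mk_surjective a
  by_cases hp : p ∈ augIdeal 𝒪 X ξ₀
  · right
    rw [← map_one (Ideal.Quotient.mk J), ← map_sub]
    apply h.isUnit_mk_of_notMem
    intro h1
    have : (1 : MvPolynomial X 𝒪) ∈ augIdeal 𝒪 X ξ₀ := by
      have := add_mem h1 hp
      rwa [sub_add_cancel] at this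
    exact augIdeal_ne_top ((Ideal.eq_top_iff_one _).mpr this)
  · left
    exact h.isUnit_mk_of_notMem hp

theorem Good.mk_mem_maximalIdeal_iff (h : Good ξ₀ J) (p : MvPolynomial X 𝒪) :
    haveI := h.isLocalRing
    Ideal.Quotient.mk J p ∈ maximalIdeal (MvPolynomial X 𝒪 ⧸ J) ↔ p ∈ augIdeal 𝒪 X ξ₀ := by
  haveI := h.isLocalRing
  rw [mem_maximalIdeal, mem_nonunits_iff]
  constructor
  · intro hp
    by_contra h1
    exact hp (h.isUnit_mk_of_notMem h1)
  · intro hp hu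
    obtain ⟨n, hn⟩ := h.pow_le
    have hnil : IsNilpotent (Ideal.Quotient.mk J p) := by
      refine ⟨n, ?_⟩
      rw [← map_pow, Ideal.Quotient.eq_zero_iff_mem]
      exact hn (Ideal.pow_mem_pow hp n)
    exact hnil.not_isUnit hu

theorem Good.maximalIdeal_eq (h : Good ξ₀ J) :
    haveI := h.isLocalRing
    maximalIdeal (MvPolynomial X 𝒪 ⧸ J) = (augIdeal 𝒪 X ξ₀).map (Ideal.Quotient.mk J) := by
  haveI := h.isLocalRing
  ext a
  obtain ⟨p, rfl⟩ := Ideal.Quotient.mk_surjective a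
  rw [h.mk_mem_maximalIdeal_iff]
  constructor
  · intro hp
    exact Ideal.mem_map_of_mem _ hp
  · intro hp
    rw [Ideal.mem_map_iff_of_surjective _ Ideal.Quotient.mk_surjective] at hp
    obtain ⟨q, hq, hqp⟩ := hp
    have : p - q ∈ J := by
      rw [← Ideal.Quotient.eq_zero_iff_mem, map_sub, hqp, sub_self]
    have := add_mem (h.le this) hq
    rwa [sub_add_cancel] at this

theorem Good.isLocalHom_algebraMap (h : Good ξ₀ J) :
    haveI := h.isLocalRing
    IsLocalHom (algebraMap 𝒪 (MvPolynomial X 𝒪 ⧸ J)) := by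
  haveI := h.isLocalRing
  constructor
  intro a ha
  by_contra hna
  have h1 : MvPolynomial.C a ∈ augIdeal 𝒪 X ξ₀ :=
    C_mem_augIdeal_iff.mpr ((mem_maximalIdeal a).mpr hna)
  have h2 := (h.mk_mem_maximalIdeal_iff _).mpr h1
  rw [mem_maximalIdeal, mem_nonunits_iff] at h2
  exact h2 ha

theorem Good.isTest (h : Good ξ₀ J) :
    haveI := h.isLocalRing
    IsArtinianTestAlgebra 𝒪 (MvPolynomial X 𝒪 ⧸ J) := by
  haveI := h.isLocalRing
  haveI := h.finite
  refine ⟨h.isLocalHom_algebraMap, ?_, inferInstance⟩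
  intro y
  obtain ⟨z, rfl⟩ := residue_surjective (R := MvPolynomial X 𝒪 ⧸ J) y
  obtain ⟨p, rfl⟩ := Ideal.Quotient.mk_surjective z
  obtain ⟨a, ha⟩ := exists_sub_C_mem_augIdeal (ξ₀ := ξ₀) p
  refine ⟨a, ?_⟩
  have h2 := (h.mk_mem_maximalIdeal_iff _).mpr ha
  rw [← residue_eq_zero_iff, map_sub, map_sub, sub_eq_zero] at h2
  exact h2.symm

theorem Good.pow_maximalIdeal_eq_bot (h : Good ξ₀ J) {n : ℕ} (hn : augIdeal 𝒪 X ξ₀ ^ n ≤ J) :
    haveI := h.isLocalRing
    maximalIdeal (MvPolynomial X 𝒪 ⧸ J) ^ n = ⊥ := by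
  haveI := h.isLocalRing
  rw [h.maximalIdeal_eq, ← Ideal.map_pow, eq_bot_iff]
  rw [Ideal.map_le_iff_le_comap]
  intro p hp
  rw [Ideal.mem_comap, Ideal.mem_bot, Ideal.Quotient.eq_zero_iff_mem]
  exact hn hp

theorem Good.augIdeal_pow_le_of_pow_maximalIdeal_eq_bot (h : Good ξ₀ J) {n : ℕ}
    (hn : haveI := h.isLocalRing; maximalIdeal (MvPolynomial X 𝒪 ⧸ J) ^ n = ⊥) :
    augIdeal 𝒪 X ξ₀ ^ n ≤ J := by
  haveI := h.isLocalRing
  rw [h.maximalIdeal_eq, ← Ideal.map_pow] at hn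
  intro p hp
  rw [← Ideal.Quotient.eq_zero_iff_mem, ← Ideal.mem_bot, ← hn]
  exact Ideal.mem_map_of_mem _ hp

/-- Enlarging a good ideal inside the augmentation ideal gives a good ideal. -/
theorem Good.of_le (h : Good ξ₀ J) {J' : Ideal (MvPolynomial X 𝒪)} (h1 : J ≤ J')
    (h2 : J' ≤ augIdeal 𝒪 X ξ₀) : Good ξ₀ J' where
  le := h2
  pow_le := by
    obtain ⟨n, hn⟩ := h.pow_le
    exact ⟨n, hn.trans h1⟩
  finite := by
    haveI := h.finite
    exact Finite.of_surjective _ (Ideal.Quotient.factor_surjective h1)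

theorem Good.inf (h₁ : Good ξ₀ J) {J' : Ideal (MvPolynomial X 𝒪)} (h₂ : Good ξ₀ J') :
    Good ξ₀ (J ⊓ J') where
  le := inf_le_left.trans h₁.le
  pow_le := by
    obtain ⟨n, hn⟩ := h₁.pow_le
    obtain ⟨m, hm⟩ := h₂.pow_le
    refine ⟨n + m, le_inf ?_ ?_⟩
    · exact (Ideal.pow_le_pow_right (Nat.le_add_right n m)).trans hn
    · exact (Ideal.pow_le_pow_right (Nat.le_add_left m n)).trans hm
  finite := by
    haveI := h₁.finite
    haveI := h₂.finite
    let f : (MvPolynomial X 𝒪 ⧸ J ⊓ J') → (MvPolynomial X 𝒪 ⧸ J) × (MvPolynomial X 𝒪 ⧸ J') :=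
      fun a => (Ideal.Quotient.factor inf_le_left a, Ideal.Quotient.factor inf_le_right a)
    apply Finite.of_injective f
    intro a b hab
    obtain ⟨p, rfl⟩ := Ideal.Quotient.mk_surjective a
    obtain ⟨q, rfl⟩ := Ideal.Quotient.mk_surjective b
    simp only [f, Prod.mk.injEq, Ideal.Quotient.factor_mk] at hab
    rw [Ideal.Quotient.eq] at hab ⊢
    rw [Ideal.Quotient.eq] at hab
    exact ⟨hab.1, hab.2⟩

theorem good_augIdeal [Finite (ResidueField 𝒪)] : Good ξ₀ (augIdeal 𝒪 X ξ₀) where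
  le := le_rfl
  pow_le := ⟨1, by rw [pow_one]⟩
  finite := by
    exact Finite.of_injective _ (RingHom.kerLift_injective (aug 𝒪 X ξ₀).toRingHom)

end Good

end Fermat.Agent.S53
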