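import Fermat.Agent.S53.Abstract.Ring

/-!
# Abstract pro-representability, part 9: completeness of the universal ring
-/

set_option autoImplicit false
set_option linter.style.haveILetI false
set_option linter.unusedSectionVars false

open IsLocalRing GaloisRep

namespace Fermat.Agent.S53

namespace Setup

variable {𝒪 : Type} [CommRing 𝒪] [IsLocalRing 𝒪] {X : Type} {ξ₀ : X → 𝒪}
variable {F : ∀ (A : Type) [CommRing A] [IsLocalRing A] [Algebra 𝒪 A], (X → A) → Prop}
variable (S : Setup 𝒪 X ξ₀ F)
variable [IsNoetherianRing 𝒪] [Finite (ResidueField 𝒪)]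

theorem X_none_sub_C_mem_kerIdeal :
    (MvPowerSeries.X none - MvPowerSeries.C S.ϖ : S.P) ∈ S.kerIdeal := by
  rw [S.mem_kerIdeal_iff]
  intro n
  rw [map_sub, S.π_X, sub_eq_zero]
  have h2 : S.π (S.K n) (S.K_good n) (MvPowerSeries.C S.ϖ) = algebraMap 𝒪 _ S.ϖ :=
    (S.π (S.K n) (S.K_good n)).commutes S.ϖ
  rw [h2]
  rfl

theorem sub_C_constantCoeff_mem_span_X (f : S.P) :
    f - MvPowerSeries.C (MvPowerSeries.constantCoeff f) ∈
      Ideal.span (Set.range (MvPowerSeries.X : Option (Fin S.d) → S.P)) := by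
  have h := Fermat.Agent.S57.varsIdeal_eq_span_of_finite (R := 𝒪)
    (Set.univ : Set (Option (Fin S.d))) Set.finite_univ
  rw [Set.image_univ] at h
  rw [← h, Fermat.Agent.S57.mem_varsIdeal_iff]
  intro m hm
  have hm0 : m = 0 := by
    ext j
    exact hm j (Set.mem_univ j)
  subst hm0
  rw [map_sub, MvPowerSeries.coeff_zero_C, MvPowerSeries.coeff_zero_eq_constantCoeff_apply,
    sub_self]

theorem map_span_X_eq_maximalIdeal :
    (Ideal.span (Set.range (MvPowerSeries.X : Option (Fin S.d) → S.P))).map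
      (Ideal.Quotient.mk S.kerIdeal) = maximalIdeal S.R := by
  apply le_antisymm
  · rw [Ideal.map_le_iff_le_comap, Ideal.span_le]
    rintro _ ⟨o, rfl⟩
    exact (S.mk_mem_maximalIdeal_R_iff _).mpr (S.X_mem_maximalIdeal o)
  · rw [S.maximalIdeal_R_eq, Ideal.map_le_iff_le_comap]
    intro f hf
    rw [Ideal.mem_comap]
    have hc : MvPowerSeries.constantCoeff f ∈ maximalIdeal 𝒪 := by
      rw [mem_maximalIdeal, mem_nonunits_iff, MvPowerSeries.isUnit_iff_constantCoeff] at hf
      exact (mem_maximalIdeal _).mpr hf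
    rw [S.hϖ, Ideal.mem_span_singleton'] at hc
    obtain ⟨u, hu⟩ := hc
    have hdecomp : f = (f - MvPowerSeries.C (MvPowerSeries.constantCoeff f)) +
        MvPowerSeries.C u * MvPowerSeries.X none -
        MvPowerSeries.C u * (MvPowerSeries.X none - MvPowerSeries.C S.ϖ) := by
      rw [← hu, map_mul]
      ring
    rw [hdecomp, map_sub, map_add,
      Ideal.Quotient.eq_zero_iff_mem.mpr
        (Ideal.mul_mem_left _ _ S.X_none_sub_C_mem_kerIdeal), sub_zero]
    refine add_mem (Ideal.mem_map_of_mem _ (S.sub_C_constantCoeff_mem_span_X f)) ?_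
    exact Ideal.mem_map_of_mem _ (Ideal.mul_mem_left _ _ (Ideal.subset_span ⟨none, rfl⟩))

instance isAdicComplete_R : IsAdicComplete (maximalIdeal S.R) S.R := by
  have h2 : IsAdicComplete (Ideal.span (Set.range (MvPowerSeries.X : Option (Fin S.d) → S.P)))
      S.R := IsAdicComplete.of_module_finite _ _
  have h3 := (IsAdicComplete.map_algebraMap_iff (S := S.R)
    (Ideal.span (Set.range (MvPowerSeries.X : Option (Fin S.d) → S.P))) S.R).mpr h2
  have h4 : Ideal.map (algebraMap S.P S.R)
      (Ideal.span (Set.range (MvPowerSeries.X : Option (Fin S.d) → S.P))) =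
      maximalIdeal S.R := S.map_span_X_eq_maximalIdeal
  rw [h4] at h3
  exact h3

end Setup

end Fermat.Agent.S53
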