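import Fermat.Agent.S53.Abstract.Gens

/-!
# Abstract pro-representability, part 5: evaluating power series at nilpotent elements
-/

set_option autoImplicit false
set_option linter.style.haveILetI false
set_option linter.unusedSectionVars false

open IsLocalRing GaloisRep

namespace Fermat.Agent.S53

section EvalTrunc

variable {𝒪 : Type} [CommRing 𝒪] {σ : Type} [Finite σ]
variable {A : Type} [CommRing A] [Algebra 𝒪 A]

theorem aeval_eq_zero_of_mem_pow_idealOfVars (g : σ → A) {n : ℕ}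
    (h : Ideal.span (Set.range g) ^ n = ⊥) {q : MvPolynomial σ 𝒪}
    (hq : q ∈ MvPolynomial.idealOfVars σ 𝒪 ^ n) : MvPolynomial.aeval g q = 0 := by
  have h1 : (MvPolynomial.idealOfVars σ 𝒪 ^ n).map
      (MvPolynomial.aeval g : MvPolynomial σ 𝒪 →ₐ[𝒪] A) ≤ ⊥ := by
    rw [Ideal.map_pow, ← h]
    apply Ideal.pow_right_mono
    rw [MvPolynomial.idealOfVars, Ideal.map_span, Ideal.span_le]
    rintro _ ⟨_, ⟨i, rfl⟩, rfl⟩
    apply Ideal.subset_span
    exact ⟨i, by simp⟩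
  have := h1 (Ideal.mem_map_of_mem _ hq)
  simpa using this

/-- Evaluation of power series at a family of elements generating a nilpotent ideal. -/
noncomputable def evalTrunc (g : σ → A) (n : ℕ) (h : Ideal.span (Set.range g) ^ n = ⊥) :
    MvPowerSeries σ 𝒪 →ₐ[𝒪] A :=
  (Ideal.Quotient.liftₐ (MvPolynomial.idealOfVars σ 𝒪 ^ n)
    (MvPolynomial.aeval g : MvPolynomial σ 𝒪 →ₐ[𝒪] A)
    (fun _ hq => aeval_eq_zero_of_mem_pow_idealOfVars g h hq)).comp
    ((MvPowerSeries.truncTotalAlgHom σ 𝒪 n).restrictScalars 𝒪)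

theorem evalTrunc_apply (g : σ → A) (n : ℕ) (h : Ideal.span (Set.range g) ^ n = ⊥)
    (f : MvPowerSeries σ 𝒪) :
    evalTrunc g n h f = MvPolynomial.aeval g (MvPowerSeries.truncTotal n f) := rfl

theorem evalTrunc_eq_of_le (g : σ → A) {n m : ℕ} (h : Ideal.span (Set.range g) ^ n = ⊥)
    (hnm : n ≤ m) (f : MvPowerSeries σ 𝒪) :
    MvPolynomial.aeval g (MvPowerSeries.truncTotal m f) =
      MvPolynomial.aeval g (MvPowerSeries.truncTotal n f) := by
  rw [← sub_eq_zero, ← map_sub]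
  exact aeval_eq_zero_of_mem_pow_idealOfVars g h
    (MvPowerSeries.truncTotal_sub_truncTotal_mem_pow_idealOfVars hnm le_rfl f)

theorem evalTrunc_congr (g : σ → A) {n m : ℕ} (h : Ideal.span (Set.range g) ^ n = ⊥)
    (h' : Ideal.span (Set.range g) ^ m = ⊥) : evalTrunc (𝒪 := 𝒪) g n h = evalTrunc g m h' := by
  apply AlgHom.ext
  intro f
  rw [evalTrunc_apply, evalTrunc_apply]
  rcases le_total n m with hnm | hmn
  · exact (evalTrunc_eq_of_le g h hnm f).symm
  · exact evalTrunc_eq_of_le g h' hmn f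

theorem evalTrunc_coe (g : σ → A) (n : ℕ) (h : Ideal.span (Set.range g) ^ n = ⊥)
    (q : MvPolynomial σ 𝒪) :
    evalTrunc g n h (q : MvPowerSeries σ 𝒪) = MvPolynomial.aeval g q := by
  have h1 : (MvPowerSeries.truncTotalAlgHom σ 𝒪 n) (q : MvPowerSeries σ 𝒪) =
      Ideal.Quotient.mk _ q :=
    (MvPowerSeries.truncTotalAlgHom σ 𝒪 n).commutes q
  have h2 : evalTrunc g n h (q : MvPowerSeries σ 𝒪) =
      (Ideal.Quotient.liftₐ (MvPolynomial.idealOfVars σ 𝒪 ^ n)
        (MvPolynomial.aeval g : MvPolynomial σ 𝒪 →ₐ[𝒪] A)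
        (fun _ hq => aeval_eq_zero_of_mem_pow_idealOfVars g h hq))
      ((MvPowerSeries.truncTotalAlgHom σ 𝒪 n) (q : MvPowerSeries σ 𝒪)) := rfl
  rw [h2, h1]
  rfl

theorem evalTrunc_X (g : σ → A) (n : ℕ) (h : Ideal.span (Set.range g) ^ n = ⊥) (i : σ) :
    evalTrunc (𝒪 := 𝒪) g n h (MvPowerSeries.X i) = g i := by
  rw [← MvPolynomial.coe_X, evalTrunc_coe, MvPolynomial.aeval_X]

theorem evalTrunc_comp {B : Type} [CommRing B] [Algebra 𝒪 B] (φ : A →ₐ[𝒪] B) (g : σ → A)
    (n : ℕ) (h : Ideal.span (Set.range g) ^ n = ⊥)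
    (h' : Ideal.span (Set.range (φ ∘ g)) ^ n = ⊥) :
    φ.comp (evalTrunc (𝒪 := 𝒪) g n h) = evalTrunc (φ ∘ g) n h' := by
  apply AlgHom.ext
  intro f
  rw [AlgHom.comp_apply, evalTrunc_apply, evalTrunc_apply]
  exact MvPolynomial.comp_aeval_apply g φ _

/-- The evaluation kills high powers of the ideal of variables. -/
theorem evalTrunc_eq_zero_of_coeff (g : σ → A) (n : ℕ) (h : Ideal.span (Set.range g) ^ n = ⊥)
    {f : MvPowerSeries σ 𝒪} (hf : ∀ x : σ →₀ ℕ, Finsupp.degree x < n → MvPowerSeries.coeff x f = 0) :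
    evalTrunc g n h f = 0 := by
  rw [evalTrunc_apply]
  have : MvPowerSeries.truncTotal n f = 0 := by
    ext x
    by_cases hx : Finsupp.degree x < n
    · rw [MvPowerSeries.coeff_truncTotal _ hx, hf x hx, MvPolynomial.coeff_zero]
    · rw [MvPowerSeries.coeff_truncTotal_eq_zero _ (not_lt.mp hx), MvPolynomial.coeff_zero]
  rw [this, map_zero]

end EvalTrunc

end Fermat.Agent.S53
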