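import Fermat.Agent.S53.Abstract.Universal

/-!
# Abstract pro-representability, part 12: universality and uniqueness
-/

set_option autoImplicit false
set_option linter.style.haveILetI false
set_option linter.unusedSectionVars false

open IsLocalRing GaloisRep

namespace Fermat.Agent.S53

section LocalPow

/-- A local homomorphism maps powers of the maximal ideal into powers of the maximal ideal. -/
theorem map_mem_pow_maximalIdeal_of_isLocalHom {R A : Type} [CommRing R] [IsLocalRing R]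
    [CommRing A] [IsLocalRing A] (φ : R →+* A) (hφ : IsLocalHom φ) {n : ℕ} {a : R}
    (ha : a ∈ maximalIdeal R ^ n) : φ a ∈ maximalIdeal A ^ n := by
  have h1 : (maximalIdeal R ^ n).map φ ≤ maximalIdeal A ^ n := by
    rw [Ideal.map_pow]
    apply Ideal.pow_right_mono
    rw [Ideal.map_le_iff_le_comap]
    intro b hb
    rw [Ideal.mem_comap, mem_maximalIdeal, mem_nonunits_iff]
    rw [mem_maximalIdeal, mem_nonunits_iff] at hb
    intro hu
    exact hb (isUnit_of_map_unit φ b hu)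
  exact h1 (Ideal.mem_map_of_mem φ ha)

end LocalPow

namespace Setup

variable {𝒪 : Type} [CommRing 𝒪] [IsLocalRing 𝒪] {X : Type} {ξ₀ : X → 𝒪}
variable {F : ∀ (A : Type) [CommRing A] [IsLocalRing A] [Algebra 𝒪 A], (X → A) → Prop}
variable (S : Setup 𝒪 X ξ₀ F)
variable [IsNoetherianRing 𝒪] [Finite (ResidueField 𝒪)]

section Univ

variable {A : Type} [CommRing A] [IsLocalRing A] [IsNoetherianRing A] [Algebra 𝒪 A]
  [IsLocalHom (algebraMap 𝒪 A)]

/-- The maps to the finite levels of `A`. -/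
theorem exists_level (hsurj : Function.Surjective (residue A ∘ algebraMap 𝒪 A)) (ξA : X → A)
    (H : ∀ (B : Type) [CommRing B] [IsLocalRing B] [Algebra 𝒪 B], IsArtinianTestAlgebra 𝒪 B →
      ∀ (q : A →ₐ[𝒪] B), IsLocalHom (q : A →+* B) → Function.Surjective q → F B (q ∘ ξA))
    (n : ℕ) :
    ∃ f : S.R →ₐ[𝒪] A ⧸ maximalIdeal A ^ (n + 1),
      (∀ x, f (S.ξR x) = Ideal.Quotient.mk _ (ξA x)) ∧
        ∀ a ∈ maximalIdeal S.R ^ (n + 1), f a = 0 := by
  have hI : maximalIdeal A ^ (n + 1) ≠ ⊤ := pow_succ_ne_top n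
  haveI := isLocalRing_quotient hI
  have hB : IsArtinianTestAlgebra 𝒪 (A ⧸ maximalIdeal A ^ (n + 1)) :=
    isArtinianTestAlgebra_quotient hsurj hI le_rfl
  have hloc : IsLocalHom ((Ideal.Quotient.mkₐ 𝒪 (maximalIdeal A ^ (n + 1)) :
      A →ₐ[𝒪] A ⧸ maximalIdeal A ^ (n + 1)) : A →+* A ⧸ maximalIdeal A ^ (n + 1)) :=
    isLocalHom_mk hI
  have hξ : F (A ⧸ maximalIdeal A ^ (n + 1))
      ((Ideal.Quotient.mkₐ 𝒪 (maximalIdeal A ^ (n + 1))) ∘ ξA) :=
    H _ hB (Ideal.Quotient.mkₐ 𝒪 (maximalIdeal A ^ (n + 1))) hloc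
      (Ideal.Quotient.mkₐ_surjective 𝒪 _)
  haveI := hB.isLocalHom
  have hJ := inJ_ker_aeval S.hF hB hξ
  have hres := S.hF.residual _ hB _ hξ
  have hpow : maximalIdeal (A ⧸ maximalIdeal A ^ (n + 1)) ^ (n + 1) = ⊥ :=
    maximalIdeal_quotient_pow_eq_bot hI le_rfl
  have hle : S.K n ≤ RingHom.ker (MvPolynomial.aeval
      ((Ideal.Quotient.mkₐ 𝒪 (maximalIdeal A ^ (n + 1))) ∘ ξA) :
        MvPolynomial X 𝒪 →ₐ[𝒪] A ⧸ maximalIdeal A ^ (n + 1)) :=
    S.K_le hJ (augIdeal_pow_le_ker_aeval hres hpow)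
  refine ⟨(Ideal.Quotient.liftₐ (S.K n) (MvPolynomial.aeval
      ((Ideal.Quotient.mkₐ 𝒪 (maximalIdeal A ^ (n + 1))) ∘ ξA))
        (fun p hp => RingHom.mem_ker.mp (hle hp))).comp (S.ψ n), ?_, ?_⟩
  · intro x
    rw [AlgHom.comp_apply, S.ψ_ξR]
    show (MvPolynomial.aeval ((Ideal.Quotient.mkₐ 𝒪 (maximalIdeal A ^ (n + 1))) ∘ ξA) :
      MvPolynomial X 𝒪 →ₐ[𝒪] A ⧸ maximalIdeal A ^ (n + 1)) (MvPolynomial.X x) = _
    rw [MvPolynomial.aeval_X]
    rfl
  · intro a ha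
    rw [AlgHom.comp_apply, S.ψ_eq_zero_iff.mpr ha, map_zero]

/-- The maps to all the quotients `A ⧸ 𝔪 ^ n`. -/
theorem exists_level' (hsurj : Function.Surjective (residue A ∘ algebraMap 𝒪 A)) (ξA : X → A)
    (H : ∀ (B : Type) [CommRing B] [IsLocalRing B] [Algebra 𝒪 B], IsArtinianTestAlgebra 𝒪 B →
      ∀ (q : A →ₐ[𝒪] B), IsLocalHom (q : A →+* B) → Function.Surjective q → F B (q ∘ ξA))
    (n : ℕ) :
    ∃ f : S.R →ₐ[𝒪] A ⧸ maximalIdeal A ^ n,
      (∀ x, f (S.ξR x) = Ideal.Quotient.mk _ (ξA x)) ∧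
        ∀ a ∈ maximalIdeal S.R ^ (n + 1), f a = 0 := by
  obtain ⟨f, hf1, hf2⟩ := S.exists_level hsurj ξA H n
  refine ⟨(Ideal.Quotient.factorₐ 𝒪 (Ideal.pow_le_pow_right (Nat.le_succ n))).comp f, ?_, ?_⟩
  · intro x
    rw [AlgHom.comp_apply, hf1]
    rfl
  · intro a ha
    rw [AlgHom.comp_apply, hf2 a ha, map_zero]

/-- Step (h): universality. -/
theorem universal_R [IsAdicComplete (maximalIdeal A) A]
    (hsurj : Function.Surjective (residue A ∘ algebraMap 𝒪 A)) (ξA : X → A)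
    (H : ∀ (B : Type) [CommRing B] [IsLocalRing B] [Algebra 𝒪 B], IsArtinianTestAlgebra 𝒪 B →
      ∀ (q : A →ₐ[𝒪] B), IsLocalHom (q : A →+* B) → Function.Surjective q → F B (q ∘ ξA)) :
    ∃ φ : S.R →ₐ[𝒪] A, IsLocalHom (φ : S.R →+* A) ∧ φ ∘ S.ξR = ξA := by
  choose f hf1 hf2 using S.exists_level' hsurj ξA H
  have hf : ∀ {m n : ℕ} (hle : m ≤ n),
      (Ideal.Quotient.factorₐ 𝒪 (Ideal.pow_le_pow_right hle)).comp (f n) = f m := by
    intro m n hle
    apply S.algHom_ext_of_pow (m := n)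
    · intro a ha
      rw [AlgHom.comp_apply, hf2 n a ha, map_zero]
    · intro a ha
      exact hf2 m a (Ideal.pow_le_pow_right (Nat.succ_le_succ hle) ha)
    · intro x
      rw [AlgHom.comp_apply, hf1, hf1]
      rfl
  refine ⟨IsAdicComplete.liftAlgHom (maximalIdeal A) f hf,
    isLocalHom_of_residue_surjective hsurj _, ?_⟩
  apply IsHausdorff.funext' (maximalIdeal A)
  intro n x
  rw [Function.comp_apply, IsAdicComplete.mk_liftAlgHom, hf1]

/-- Step (i): uniqueness. -/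
theorem unique_R [IsAdicComplete (maximalIdeal A) A]
    (φ φ' : S.R →ₐ[𝒪] A) (hφ : IsLocalHom (φ : S.R →+* A)) (hφ' : IsLocalHom (φ' : S.R →+* A))
    (h : φ ∘ S.ξR = φ' ∘ S.ξR) : φ = φ' := by
  have hΘ : φ.comp S.Θ = φ'.comp S.Θ := by
    apply MvPolynomial.algHom_ext
    intro x
    rw [AlgHom.comp_apply, AlgHom.comp_apply, Θ, MvPolynomial.aeval_X]
    exact congrFun h x
  apply DFunLike.coe_injective
  apply IsHausdorff.funext' (maximalIdeal A)
  intro n a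
  obtain ⟨p, hp⟩ := S.exists_sub_Θ_mem a n
  have hp' : a - S.Θ p ∈ maximalIdeal S.R ^ n := Ideal.pow_le_pow_right (Nat.le_succ n) hp
  have h1 : φ (a - S.Θ p) ∈ maximalIdeal A ^ n :=
    map_mem_pow_maximalIdeal_of_isLocalHom (φ : S.R →+* A) hφ hp'
  have h2 : φ' (a - S.Θ p) ∈ maximalIdeal A ^ n :=
    map_mem_pow_maximalIdeal_of_isLocalHom (φ' : S.R →+* A) hφ' hp'
  have h3 : φ (S.Θ p) = φ' (S.Θ p) := congrArg (fun f => f p) hΘ
  rw [Ideal.Quotient.eq]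
  have h4 : φ a - φ' a = φ (a - S.Θ p) - φ' (a - S.Θ p) := by
    rw [map_sub, map_sub, h3]
    ring
  rw [h4]
  exact sub_mem h1 h2

end Univ

end Setup

end Fermat.Agent.S53
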