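import Fermat.Agent.S53.Abstract.Tangent

/-!
# Abstract pro-representability, part 4: uniform generators of the maximal ideals
-/

set_option autoImplicit false
set_option linter.style.haveILetI false
set_option linter.unusedSectionVars false

open IsLocalRing GaloisRep

namespace Fermat.Agent.S53

section TangentIdeal

variable {𝒪 : Type} [CommRing 𝒪] [IsLocalRing 𝒪] {X : Type} {ξ₀ : X → 𝒪}
variable {F : ∀ (A : Type) [CommRing A] [IsLocalRing A] [Algebra 𝒪 A], (X → A) → Prop}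

/-- The type of tangent vectors of `F`. -/
def TangentPt (F : ∀ (A : Type) [CommRing A] [IsLocalRing A] [Algebra 𝒪 A], (X → A) → Prop) :
    Type :=
  letI := dualAlg 𝒪
  {ξ : X → DualNumber (ResidueField 𝒪) // F (DualNumber (ResidueField 𝒪)) ξ}

/-- The kernel of the evaluation at a tangent vector. -/
noncomputable def tangentKer (τ : TangentPt F) : Ideal (MvPolynomial X 𝒪) :=
  letI := dualAlg 𝒪
  RingHom.ker (MvPolynomial.aeval τ.1 : MvPolynomial X 𝒪 →ₐ[𝒪] DualNumber (ResidueField 𝒪))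

/-- The tangent ideal: polynomials in the augmentation ideal killed by all tangent vectors. -/
noncomputable def tangentIdeal (ξ₀ : X → 𝒪)
    (F : ∀ (A : Type) [CommRing A] [IsLocalRing A] [Algebra 𝒪 A], (X → A) → Prop) :
    Ideal (MvPolynomial X 𝒪) :=
  augIdeal 𝒪 X ξ₀ ⊓ ⨅ τ : TangentPt F, tangentKer τ

theorem inJ_tangentKer [Finite (ResidueField 𝒪)] (hF : FunctorAxioms 𝒪 X ξ₀ F)
    (τ : TangentPt F) : InJ ξ₀ F (tangentKer τ) := by
  letI := dualAlg 𝒪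
  exact inJ_ker_aeval hF (isArtinianTestAlgebra_dualNumber 𝒪) τ.2

theorem inJ_tangentIdeal [Finite (ResidueField 𝒪)] (hF : FunctorAxioms 𝒪 X ξ₀ F) :
    InJ ξ₀ F (tangentIdeal ξ₀ F) := by
  haveI : Finite (TangentPt F) := hF.tangent_finite
  cases nonempty_fintype (TangentPt F)
  classical
  have key : ∀ s : Finset (TangentPt F), InJ ξ₀ F (augIdeal 𝒪 X ξ₀ ⊓ s.inf tangentKer) := by
    intro s
    induction s using Finset.induction_on with
    | empty =>
      rw [Finset.inf_empty, inf_top_eq]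
      exact inJ_augIdeal hF
    | insert a s _ ih =>
      rw [Finset.inf_insert, inf_left_comm]
      exact (inJ_tangentKer hF a).inf hF ih
  have := key Finset.univ
  rwa [Finset.inf_univ_eq_iInf] at this

/-- The ideal generated by the constants in the maximal ideal of `𝒪`. -/
noncomputable def constIdeal (𝒪 : Type) [CommRing 𝒪] [IsLocalRing 𝒪] (X : Type) :
    Ideal (MvPolynomial X 𝒪) :=
  (maximalIdeal 𝒪).map (MvPolynomial.C : 𝒪 →+* MvPolynomial X 𝒪)

theorem constIdeal_le_augIdeal : constIdeal 𝒪 X ≤ augIdeal 𝒪 X ξ₀ := by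
  rw [constIdeal, Ideal.map_le_iff_le_comap]
  intro c hc
  exact C_mem_augIdeal_iff.mpr hc

/-- Step (c): the tangent bound. -/
theorem tangentIdeal_le [Finite (ResidueField 𝒪)] (hF : FunctorAxioms 𝒪 X ξ₀ F)
    {J : Ideal (MvPolynomial X 𝒪)} (hJ : InJ ξ₀ F J) :
    tangentIdeal ξ₀ F ≤ J ⊔ augIdeal 𝒪 X ξ₀ ^ 2 ⊔ constIdeal 𝒪 X := by
  letI := dualAlg 𝒪
  set J' := J ⊔ augIdeal 𝒪 X ξ₀ ^ 2 ⊔ constIdeal 𝒪 X with hJ'
  have hle : J' ≤ augIdeal 𝒪 X ξ₀ :=
    sup_le (sup_le hJ.good.le (Ideal.pow_le_self two_ne_zero)) constIdeal_le_augIdeal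
  have hin : InJ ξ₀ F J' := hJ.of_le hF (le_sup_of_le_left le_sup_left) hle
  haveI := hin.good.isLocalRing
  have hsq : maximalIdeal (MvPolynomial X 𝒪 ⧸ J') ^ 2 = ⊥ :=
    hin.good.pow_maximalIdeal_eq_bot (le_sup_of_le_left le_sup_right)
  have hϖ : ∀ c ∈ maximalIdeal 𝒪, algebraMap 𝒪 (MvPolynomial X 𝒪 ⧸ J') c = 0 := by
    intro c hc
    show Ideal.Quotient.mk J' (MvPolynomial.C c) = 0
    rw [Ideal.Quotient.eq_zero_iff_mem]
    exact le_sup_right (a := J ⊔ augIdeal 𝒪 X ξ₀ ^ 2) (Ideal.mem_map_of_mem _ hc)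
  intro p hp
  by_contra hpn
  have hne : Ideal.Quotient.mk J' p ≠ 0 := by
    rwa [Ne, Ideal.Quotient.eq_zero_iff_mem]
  obtain ⟨ψ, hψloc, hψ⟩ := exists_algHom_dualNumber_ne_zero hin.good.isTest hsq hϖ hne
  have hFτ : F (DualNumber (ResidueField 𝒪)) (ψ ∘ tautFam J') :=
    hF.map _ _ hin.good.isTest (isArtinianTestAlgebra_dualNumber 𝒪) ψ hψloc _ hin.isF
  let τ : TangentPt F := ⟨ψ ∘ tautFam J', hFτ⟩
  have h1 : p ∈ tangentKer τ := by
    have := hp.2
    exact (Ideal.mem_iInf.mp this) τ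
  have h2 : (MvPolynomial.aeval (ψ ∘ tautFam J') : MvPolynomial X 𝒪 →ₐ[𝒪] _) =
      ψ.comp (Ideal.Quotient.mkₐ 𝒪 J') := by
    apply MvPolynomial.algHom_ext
    intro x
    rw [MvPolynomial.aeval_X]
    rfl
  have h3 : ψ (Ideal.Quotient.mk J' p) = 0 := by
    have := RingHom.mem_ker.mp h1
    rw [h2] at this
    exact this
  exact hψ h3

/-- A finite family of elements of the augmentation ideal representing all classes of the
augmentation ideal modulo the tangent ideal. -/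
theorem exists_gens [Finite (ResidueField 𝒪)] (hF : FunctorAxioms 𝒪 X ξ₀ F) :
    ∃ (d : ℕ) (t : Fin d → MvPolynomial X 𝒪), (∀ i, t i ∈ augIdeal 𝒪 X ξ₀) ∧
      ∀ p ∈ augIdeal 𝒪 X ξ₀, ∃ i, p - t i ∈ tangentIdeal ξ₀ F := by
  haveI := (inJ_tangentIdeal hF).good.finite
  let S : Type := {y : MvPolynomial X 𝒪 ⧸ tangentIdeal ξ₀ F //
    ∃ p ∈ augIdeal 𝒪 X ξ₀, Ideal.Quotient.mk _ p = y}
  haveI : Finite S := Subtype.finite
  obtain ⟨d, ⟨e⟩⟩ := Finite.exists_equiv_fin S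
  refine ⟨d, fun i => Classical.choose (e.symm i).2, fun i => ?_, fun p hp => ?_⟩
  · exact (Classical.choose_spec (e.symm i).2).1
  · refine ⟨e ⟨Ideal.Quotient.mk _ p, p, hp, rfl⟩, ?_⟩
    rw [← Ideal.Quotient.eq]
    have := (Classical.choose_spec (e.symm (e ⟨Ideal.Quotient.mk _ p, p, hp, rfl⟩)).2).2
    rw [this, Equiv.symm_apply_apply]

/-- The generators: the uniformiser and the `t i`. -/
noncomputable def gen (ϖ : 𝒪) {d : ℕ} (t : Fin d → MvPolynomial X 𝒪) :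
    Option (Fin d) → MvPolynomial X 𝒪 :=
  fun o => o.elim (MvPolynomial.C ϖ) t

theorem gen_mem_augIdeal {ϖ : 𝒪} (hϖ : ϖ ∈ maximalIdeal 𝒪) {d : ℕ}
    {t : Fin d → MvPolynomial X 𝒪} (ht : ∀ i, t i ∈ augIdeal 𝒪 X ξ₀) (o : Option (Fin d)) :
    gen ϖ t o ∈ augIdeal 𝒪 X ξ₀ := by
  cases o with
  | none => exact C_mem_augIdeal_iff.mpr hϖ
  | some i => exact ht i

/-- First Nakayama step: the images of the generators generate the maximal ideal of `Pol ⧸ J`
for every `J ∈ 𝒥`. -/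
theorem maximalIdeal_le_span_gen [Finite (ResidueField 𝒪)] (hF : FunctorAxioms 𝒪 X ξ₀ F)
    {ϖ : 𝒪} (hϖ : maximalIdeal 𝒪 = Ideal.span {ϖ}) {d : ℕ} {t : Fin d → MvPolynomial X 𝒪}
    (ht : ∀ p ∈ augIdeal 𝒪 X ξ₀, ∃ i, p - t i ∈ tangentIdeal ξ₀ F)
    {J : Ideal (MvPolynomial X 𝒪)} (hJ : InJ ξ₀ F J) :
    haveI := hJ.good.isLocalRing
    maximalIdeal (MvPolynomial X 𝒪 ⧸ J) ≤
      Ideal.span (Set.range fun o : Option (Fin d) => Ideal.Quotient.mk J (gen ϖ t o)) := by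
  haveI := hJ.good.isLocalRing
  haveI := hJ.good.finite
  set I : Ideal (MvPolynomial X 𝒪 ⧸ J) :=
    Ideal.span (Set.range fun o : Option (Fin d) => Ideal.Quotient.mk J (gen ϖ t o)) with hI
  have hfg : (maximalIdeal (MvPolynomial X 𝒪 ⧸ J)).FG :=
    (isNoetherianRing_iff_ideal_fg _).mp inferInstance _
  refine Submodule.le_of_le_smul_of_le_jacobson_bot hfg (maximalIdeal_le_jacobson ⊥) ?_
  intro a ha
  obtain ⟨p, rfl⟩ := Ideal.Quotient.mk_surjective a
  have hp : p ∈ augIdeal 𝒪 X ξ₀ := (hJ.good.mk_mem_maximalIdeal_iff p).mp ha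
  obtain ⟨i, hi⟩ := ht p hp
  have h1 := tangentIdeal_le hF hJ hi
  rw [Submodule.mem_sup] at h1
  obtain ⟨u, hu, w, hw, huw⟩ := h1
  rw [Submodule.mem_sup] at hu
  obtain ⟨j, hj, v, hv, hjv⟩ := hu
  have hpe : p = gen ϖ t (some i) + w + j + v := by
    show p = t i + w + j + v
    linear_combination (-1 : MvPolynomial X 𝒪) * huw - hjv
  have hwI : Ideal.Quotient.mk J w ∈ I := by
    have h2 : constIdeal 𝒪 X ≤ Ideal.span {gen ϖ t (none : Option (Fin d))} := by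
      rw [constIdeal, hϖ, Ideal.map_span, Set.image_singleton]
      exact le_rfl
    have h3 := h2 hw
    rw [Ideal.mem_span_singleton'] at h3
    obtain ⟨q, hq⟩ := h3
    rw [← hq, map_mul]
    exact Ideal.mul_mem_left _ _ (Ideal.subset_span ⟨none, rfl⟩)
  have hvm : Ideal.Quotient.mk J v ∈
      maximalIdeal (MvPolynomial X 𝒪 ⧸ J) • maximalIdeal (MvPolynomial X 𝒪 ⧸ J) := by
    rw [smul_eq_mul, ← pow_two, hJ.good.maximalIdeal_eq, ← Ideal.map_pow]
    exact Ideal.mem_map_of_mem _ hv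
  rw [hpe, map_add, map_add, map_add, Ideal.Quotient.eq_zero_iff_mem.mpr hj, add_zero]
  refine Submodule.add_mem_sup (add_mem ?_ hwI) hvm
  exact Ideal.subset_span ⟨some i, rfl⟩

end TangentIdeal

end Fermat.Agent.S53
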