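import Fermat.Agent.S53.Abstract.Basic

/-!
# Abstract pro-representability, part 2: the lattice of ideals carrying a point of the functor
-/

set_option autoImplicit false
set_option linter.style.haveILetI false
set_option linter.unusedSectionVars false

open IsLocalRing GaloisRep

namespace Fermat.Agent.S53

section InJ

variable {𝒪 : Type} [CommRing 𝒪] [IsLocalRing 𝒪] {X : Type} {ξ₀ : X → 𝒪}
variable {F : ∀ (A : Type) [CommRing A] [IsLocalRing A] [Algebra 𝒪 A], (X → A) → Prop}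

/-- The tautological family over `Pol ⧸ J`. -/
noncomputable def tautFam (J : Ideal (MvPolynomial X 𝒪)) : X → MvPolynomial X 𝒪 ⧸ J :=
  fun x => Ideal.Quotient.mk J (MvPolynomial.X x)

/-- `J` is good and the tautological family over `Pol ⧸ J` is a point of `F`. -/
def InJ (ξ₀ : X → 𝒪)
    (F : ∀ (A : Type) [CommRing A] [IsLocalRing A] [Algebra 𝒪 A], (X → A) → Prop)
    (J : Ideal (MvPolynomial X 𝒪)) : Prop :=
  ∃ h : Good ξ₀ J, haveI := h.isLocalRing; F (MvPolynomial X 𝒪 ⧸ J) (tautFam J)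

theorem InJ.good {J : Ideal (MvPolynomial X 𝒪)} (h : InJ ξ₀ F J) : Good ξ₀ J := h.1

theorem InJ.isF {J : Ideal (MvPolynomial X 𝒪)} (h : InJ ξ₀ F J) :
    haveI := h.good.isLocalRing
    F (MvPolynomial X 𝒪 ⧸ J) (tautFam J) := h.2

/-- Step (a): the kernel of the evaluation at a point of `F` is in `𝒥`. -/
theorem inJ_ker_aeval [Finite (ResidueField 𝒪)] (hF : FunctorAxioms 𝒪 X ξ₀ F)
    {A : Type} [CommRing A] [IsLocalRing A] [Algebra 𝒪 A]
    (hA : IsArtinianTestAlgebra 𝒪 A) {ξ : X → A} (hξ : F A ξ) :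
    InJ ξ₀ F (RingHom.ker (MvPolynomial.aeval ξ : MvPolynomial X 𝒪 →ₐ[𝒪] A)) := by
  haveI := hA.isLocalHom
  have hres := hF.residual A hA ξ hξ
  have hgood : Good ξ₀ (RingHom.ker (MvPolynomial.aeval ξ : MvPolynomial X 𝒪 →ₐ[𝒪] A)) := by
    refine ⟨ker_aeval_le_augIdeal hres, ?_, ?_⟩
    · obtain ⟨n, hn⟩ := exists_pow_maximalIdeal_eq_bot_of_test hA
      exact ⟨n, augIdeal_pow_le_ker_aeval hres hn⟩
    · haveI := finite_of_test hA
      exact Finite.of_injective _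
        (RingHom.kerLift_injective (MvPolynomial.aeval ξ : MvPolynomial X 𝒪 →ₐ[𝒪] A).toRingHom)
  refine ⟨hgood, ?_⟩
  haveI := hgood.isLocalRing
  set φ : (MvPolynomial X 𝒪 ⧸ RingHom.ker (MvPolynomial.aeval ξ : MvPolynomial X 𝒪 →ₐ[𝒪] A))
      →ₐ[𝒪] A := Ideal.kerLiftAlg (MvPolynomial.aeval ξ : MvPolynomial X 𝒪 →ₐ[𝒪] A) with hφ
  have hφmk : ∀ p, φ (Ideal.Quotient.mk _ p) = MvPolynomial.aeval ξ p := fun p => rfl
  have hloc : IsLocalHom (φ : (MvPolynomial X 𝒪 ⧸ RingHom.ker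
      (MvPolynomial.aeval ξ : MvPolynomial X 𝒪 →ₐ[𝒪] A)) →+* A) := by
    constructor
    intro a ha
    obtain ⟨p, rfl⟩ := Ideal.Quotient.mk_surjective a
    apply hgood.isUnit_mk_of_notMem
    intro hp
    have h1 := (aeval_mem_maximalIdeal_iff hres p).mpr hp
    rw [mem_maximalIdeal, mem_nonunits_iff] at h1
    exact h1 ha
  have hinj : Function.Injective φ := Ideal.kerLiftAlg_injective _
  apply hF.of_injective _ A hgood.isTest hA φ hloc hinj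
  have : (φ ∘ tautFam _) = ξ := by
    funext x
    simp only [Function.comp_apply, tautFam, hφmk, MvPolynomial.aeval_X]
  rw [this]
  exact hξ

/-- Step (b1): `𝒥` is closed under enlarging inside the augmentation ideal. -/
theorem InJ.of_le (hF : FunctorAxioms 𝒪 X ξ₀ F) {J J' : Ideal (MvPolynomial X 𝒪)}
    (h : InJ ξ₀ F J) (h1 : J ≤ J') (h2 : J' ≤ augIdeal 𝒪 X ξ₀) : InJ ξ₀ F J' := by
  have hg' : Good ξ₀ J' := h.good.of_le h1 h2
  refine ⟨hg', ?_⟩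
  haveI := h.good.isLocalRing
  haveI := hg'.isLocalRing
  set φ : (MvPolynomial X 𝒪 ⧸ J) →ₐ[𝒪] (MvPolynomial X 𝒪 ⧸ J') := Ideal.Quotient.factorₐ 𝒪 h1
  have hφmk : ∀ p, φ (Ideal.Quotient.mk _ p) = Ideal.Quotient.mk _ p := fun p => rfl
  have hloc : IsLocalHom (φ : (MvPolynomial X 𝒪 ⧸ J) →+* (MvPolynomial X 𝒪 ⧸ J')) := by
    constructor
    intro a ha
    obtain ⟨p, rfl⟩ := Ideal.Quotient.mk_surjective a
    apply h.good.isUnit_mk_of_notMem
    intro hp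
    have h3 := (hg'.mk_mem_maximalIdeal_iff p).mpr hp
    rw [mem_maximalIdeal, mem_nonunits_iff] at h3
    exact h3 ha
  have := hF.map _ _ h.good.isTest hg'.isTest φ hloc (tautFam J) h.isF
  exact this

/-- Step (b2): `𝒥` is closed under binary intersections. -/
theorem InJ.inf (hF : FunctorAxioms 𝒪 X ξ₀ F) {J₁ J₂ : Ideal (MvPolynomial X 𝒪)}
    (h₁ : InJ ξ₀ F J₁) (h₂ : InJ ξ₀ F J₂) : InJ ξ₀ F (J₁ ⊓ J₂) := by
  have hgP : Good ξ₀ (J₁ ⊓ J₂) := h₁.good.inf h₂.good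
  have hgC : Good ξ₀ (J₁ ⊔ J₂) := h₁.good.of_le le_sup_left (sup_le h₁.good.le h₂.good.le)
  refine ⟨hgP, ?_⟩
  haveI := h₁.good.isLocalRing
  haveI := h₂.good.isLocalRing
  haveI := hgP.isLocalRing
  haveI := hgC.isLocalRing
  set f : (MvPolynomial X 𝒪 ⧸ J₁) →ₐ[𝒪] (MvPolynomial X 𝒪 ⧸ J₁ ⊔ J₂) :=
    Ideal.Quotient.factorₐ 𝒪 le_sup_left
  set g : (MvPolynomial X 𝒪 ⧸ J₂) →ₐ[𝒪] (MvPolynomial X 𝒪 ⧸ J₁ ⊔ J₂) :=
    Ideal.Quotient.factorₐ 𝒪 le_sup_right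
  set pA : (MvPolynomial X 𝒪 ⧸ J₁ ⊓ J₂) →ₐ[𝒪] (MvPolynomial X 𝒪 ⧸ J₁) :=
    Ideal.Quotient.factorₐ 𝒪 inf_le_left
  set pB : (MvPolynomial X 𝒪 ⧸ J₁ ⊓ J₂) →ₐ[𝒪] (MvPolynomial X 𝒪 ⧸ J₂) :=
    Ideal.Quotient.factorₐ 𝒪 inf_le_right
  have hpA : IsLocalHom (pA : (MvPolynomial X 𝒪 ⧸ J₁ ⊓ J₂) →+* (MvPolynomial X 𝒪 ⧸ J₁)) := by
    constructor
    intro a ha
    obtain ⟨p, rfl⟩ := Ideal.Quotient.mk_surjective a
    apply hgP.isUnit_mk_of_notMem
    intro hp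
    have h3 := (h₁.good.mk_mem_maximalIdeal_iff p).mpr hp
    rw [mem_maximalIdeal, mem_nonunits_iff] at h3
    exact h3 ha
  have hpB : IsLocalHom (pB : (MvPolynomial X 𝒪 ⧸ J₁ ⊓ J₂) →+* (MvPolynomial X 𝒪 ⧸ J₂)) := by
    constructor
    intro a ha
    obtain ⟨p, rfl⟩ := Ideal.Quotient.mk_surjective a
    apply hgP.isUnit_mk_of_notMem
    intro hp
    have h3 := (h₂.good.mk_mem_maximalIdeal_iff p).mpr hp
    rw [mem_maximalIdeal, mem_nonunits_iff] at h3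
    exact h3 ha
  have hcomm : f.comp pA = g.comp pB := by
    apply AlgHom.ext
    intro a
    obtain ⟨p, rfl⟩ := Ideal.Quotient.mk_surjective a
    rfl
  have hinj : Function.Injective (fun x => (pA x, pB x)) := by
    intro a b hab
    obtain ⟨p, rfl⟩ := Ideal.Quotient.mk_surjective a
    obtain ⟨q, rfl⟩ := Ideal.Quotient.mk_surjective b
    simp only [Prod.mk.injEq] at hab
    have h1 : Ideal.Quotient.mk J₁ p = Ideal.Quotient.mk J₁ q := hab.1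
    have h2 : Ideal.Quotient.mk J₂ p = Ideal.Quotient.mk J₂ q := hab.2
    rw [Ideal.Quotient.eq] at h1 h2 ⊢
    exact ⟨h1, h2⟩
  have hsurj : ∀ a b, f a = g b → ∃ x, pA x = a ∧ pB x = b := by
    intro a b hab
    obtain ⟨p, rfl⟩ := Ideal.Quotient.mk_surjective a
    obtain ⟨q, rfl⟩ := Ideal.Quotient.mk_surjective b
    have h1 : Ideal.Quotient.mk (J₁ ⊔ J₂) p = Ideal.Quotient.mk (J₁ ⊔ J₂) q := hab
    rw [Ideal.Quotient.eq, Submodule.mem_sup] at h1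
    obtain ⟨j₁, hj₁, j₂, hj₂, hj⟩ := h1
    refine ⟨Ideal.Quotient.mk _ (p - j₁), ?_, ?_⟩
    · show Ideal.Quotient.mk J₁ (p - j₁) = Ideal.Quotient.mk J₁ p
      rw [Ideal.Quotient.eq]
      simpa using neg_mem hj₁
    · show Ideal.Quotient.mk J₂ (p - j₁) = Ideal.Quotient.mk J₂ q
      rw [Ideal.Quotient.eq]
      have : p - j₁ - q = j₂ := by linear_combination -hj
      rw [this]
      exact hj₂
  exact hF.fibre _ _ _ _ h₁.good.isTest h₂.good.isTest hgC.isTest hgP.isTest f g pA pB hpA hpB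
    hcomm hinj hsurj (tautFam _) h₁.isF h₂.isF

theorem inJ_augIdeal [Finite (ResidueField 𝒪)] (hF : FunctorAxioms 𝒪 X ξ₀ F) :
    InJ ξ₀ F (augIdeal 𝒪 X ξ₀) :=
  inJ_ker_aeval hF isTestAlgebra_residueField_A hF.base

end InJ

end Fermat.Agent.S53
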