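import Fermat.Agent.S53.Abstract.Complete

/-!
# Abstract pro-representability, part 10: the universal ring is the limit of the tower
-/

set_option autoImplicit false
set_option linter.style.haveILetI false
set_option linter.unusedSectionVars false

open IsLocalRing GaloisRep

namespace Fermat.Agent.S53

namespace Setup

variable {𝒪 : Type} [CommRing 𝒪] [IsLocalRing 𝒪] {X : Type} {ξ₀ : X → 𝒪}
variable {F : ∀ (A : Type) [CommRing A] [IsLocalRing A] [Algebra 𝒪 A], (X → A) → Prop}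
variable (S : Setup 𝒪 X ξ₀ F)
variable [IsNoetherianRing 𝒪] [Finite (ResidueField 𝒪)]

/-- One step of the approximation: an element killed by `ψ n` can be corrected by an element of
`𝔪 ^ (n + 1)` to an element killed by `ψ (n + 1)`. -/
theorem exists_correction {n : ℕ} {a : S.R} (ha : S.ψ n a = 0) :
    ∃ h ∈ maximalIdeal S.R ^ (n + 1), S.ψ (n + 1) (a - h) = 0 := by
  haveI := (S.K_good (n + 1)).isLocalRing
  obtain ⟨p, hp⟩ := Ideal.Quotient.mk_surjective (S.ψ (n + 1) a)
  have h1 : p ∈ S.K n := by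
    rw [← Ideal.Quotient.eq_zero_iff_mem, ← ha, ← S.factor_ψ (Nat.le_succ n) a, ← hp,
      Ideal.Quotient.factor_mk]
  have h2 := S.K_le_sup n h1
  rw [Submodule.mem_sup] at h2
  obtain ⟨q, hq, r, hr, hqr⟩ := h2
  have h3 : S.ψ (n + 1) a = Ideal.Quotient.mk _ r := by
    rw [← hp, ← hqr, map_add, Ideal.Quotient.eq_zero_iff_mem.mpr hq, zero_add]
  have h4 : Ideal.Quotient.mk (S.K (n + 1)) r ∈ (maximalIdeal S.R ^ (n + 1)).map (S.ψ (n + 1)) := by
    rw [S.map_ψ_maximalIdeal_pow, (S.K_good (n + 1)).maximalIdeal_eq, ← Ideal.map_pow]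
    exact Ideal.mem_map_of_mem _ hr
  rw [Ideal.mem_map_iff_of_surjective _ (S.ψ_surjective (n + 1))] at h4
  obtain ⟨h, hh, hhr⟩ := h4
  exact ⟨h, hh, by rw [map_sub, h3, hhr, sub_self]⟩

/-- The correction step as a function. -/
noncomputable def corrStep (i : ℕ) (a : S.R) : S.R := by
  classical
  exact if h : S.ψ i a = 0 then a - Classical.choose (S.exists_correction h) else a

theorem corrStep_spec {i : ℕ} {a : S.R} (h : S.ψ i a = 0) :
    S.corrStep i a - a ∈ maximalIdeal S.R ^ (i + 1) ∧ S.ψ (i + 1) (S.corrStep i a) = 0 := by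
  classical
  have hs := Classical.choose_spec (S.exists_correction h)
  have : S.corrStep i a = a - Classical.choose (S.exists_correction h) := by
    simp only [corrStep, dif_pos h]
  rw [this]
  refine ⟨?_, hs.2⟩
  rw [sub_sub_cancel_left]
  exact neg_mem hs.1

/-- The approximating sequence starting from `y` at level `n`. -/
noncomputable def corrSeq (n : ℕ) (y : S.R) : ℕ → S.R
  | 0 => y
  | (i + 1) => if i < n then y else S.corrStep i (corrSeq n y i)

theorem corrSeq_of_le (n : ℕ) (y : S.R) {i : ℕ} (hi : i ≤ n) : S.corrSeq n y i = y := by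
  cases i with
  | zero => rfl
  | succ i =>
    have : i < n := hi
    simp only [corrSeq, if_pos this]

theorem corrSeq_succ_of_le (n : ℕ) (y : S.R) {i : ℕ} (hi : n ≤ i) :
    S.corrSeq n y (i + 1) = S.corrStep i (S.corrSeq n y i) := by
  simp only [corrSeq, if_neg (not_lt.mpr hi)]

theorem ψ_corrSeq {n : ℕ} {y : S.R} (hy : S.ψ n y = 0) {i : ℕ} (hi : n ≤ i) :
    S.ψ i (S.corrSeq n y i) = 0 := by
  induction i, hi using Nat.le_induction with
  | base => rw [S.corrSeq_of_le n y le_rfl]; exact hy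
  | succ i hi ih =>
    rw [S.corrSeq_succ_of_le n y hi]
    exact (S.corrStep_spec ih).2

theorem corrSeq_succ_sub {n : ℕ} {y : S.R} (hy : S.ψ n y = 0) (i : ℕ) :
    S.corrSeq n y (i + 1) - S.corrSeq n y i ∈ maximalIdeal S.R ^ (i + 1) := by
  by_cases hi : n ≤ i
  · rw [S.corrSeq_succ_of_le n y hi]
    exact (S.corrStep_spec (S.ψ_corrSeq hy hi)).1
  · have h1 : i + 1 ≤ n := not_le.mp hi
    rw [S.corrSeq_of_le n y h1, S.corrSeq_of_le n y (Nat.le_of_succ_le h1), sub_self]
    exact zero_mem _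

/-- A sequence with `f (i + 1) - f i ∈ 𝔪 ^ (i + 1)` has a limit. -/
theorem exists_limit {f : ℕ → S.R}
    (hf : ∀ i, f (i + 1) - f i ∈ maximalIdeal S.R ^ (i + 1)) :
    ∃ L : S.R, ∀ i, f i - L ∈ maximalIdeal S.R ^ i := by
  have hC : ∀ {m n : ℕ}, m ≤ n → f m ≡ f n [SMOD (maximalIdeal S.R ^ m • ⊤ : Submodule S.R S.R)] := by
    intro m n hmn
    induction n, hmn using Nat.le_induction with
    | base => exact SModEq.rfl
    | succ n hmn ih =>
      refine ih.trans ?_
      rw [SModEq.sub_mem, smul_eq_mul, Ideal.mul_top]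
      have := Ideal.pow_le_pow_right (Nat.le_succ_of_le hmn) (hf n)
      rw [← neg_sub]
      exact neg_mem this
  obtain ⟨L, hL⟩ := IsPrecomplete.prec (IsAdicComplete.toIsPrecomplete (I := maximalIdeal S.R)
    (M := S.R)) hC
  refine ⟨L, fun i => ?_⟩
  have := hL i
  rwa [SModEq.sub_mem, smul_eq_mul, Ideal.mul_top] at this

/-- Step (f): the kernel of `ψ n` is `𝔪 ^ (n + 1)`. -/
theorem mem_pow_of_ψ_eq_zero {n : ℕ} {y : S.R} (hy : S.ψ n y = 0) :
    y ∈ maximalIdeal S.R ^ (n + 1) := by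
  obtain ⟨L, hL⟩ := S.exists_limit (S.corrSeq_succ_sub hy)
  have hL0 : L = 0 := by
    apply S.eq_zero_of_forall_ψ
    intro j
    set i := max j n + 1 with hi
    have hji : j + 1 ≤ i := by omega
    have hni : n ≤ i := by omega
    have h1 : S.ψ j (S.corrSeq n y i - L) = 0 := S.ψ_eq_zero_of_mem_pow hji (hL i)
    have h2 : S.ψ j (S.corrSeq n y i) = 0 := by
      rw [← S.factor_ψ (show j ≤ i by omega), S.ψ_corrSeq hy hni, map_zero]
    rw [map_sub, h2, zero_sub, neg_eq_zero] at h1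
    exact h1
  have h3 := hL (n + 1)
  rw [hL0, sub_zero] at h3
  have h4 := S.corrSeq_succ_sub hy n
  rw [S.corrSeq_of_le n y le_rfl] at h4
  have := sub_mem h3 h4
  rwa [sub_sub_cancel] at this

theorem ψ_eq_zero_iff {n : ℕ} {y : S.R} : S.ψ n y = 0 ↔ y ∈ maximalIdeal S.R ^ (n + 1) :=
  ⟨S.mem_pow_of_ψ_eq_zero, S.ψ_eq_zero_of_mem_pow le_rfl⟩

/-- The universal ring is the limit of the tower: compatible families lift. -/
theorem exists_of_compatible (b : ∀ n, MvPolynomial X 𝒪 ⧸ S.K n)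
    (hb : ∀ n, Ideal.Quotient.factor (S.K_antitone (Nat.le_succ n)) (b (n + 1)) = b n) :
    ∃ a : S.R, ∀ n, S.ψ n a = b n := by
  choose f hf using fun n => S.ψ_surjective n (b n)
  have hC : ∀ i, f (i + 1) - f i ∈ maximalIdeal S.R ^ (i + 1) := by
    intro i
    apply S.mem_pow_of_ψ_eq_zero
    rw [map_sub, hf i, ← S.factor_ψ (Nat.le_succ i), hf (i + 1), hb i, sub_self]
  obtain ⟨L, hL⟩ := S.exists_limit hC
  refine ⟨L, fun n => ?_⟩
  have h1 : S.ψ n (f (n + 1) - L) = 0 := S.ψ_eq_zero_of_mem_pow le_rfl (hL (n + 1))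
  rw [map_sub, sub_eq_zero] at h1
  rw [← h1, ← S.factor_ψ (Nat.le_succ n), hf (n + 1), hb n]

end Setup

end Fermat.Agent.S53
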