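import Fermat.Agent.S53.Abstract.Eval

/-!
# Abstract pro-representability, part 6: the power series ring and the maps `π_J`
-/

set_option autoImplicit false
set_option linter.style.haveILetI false
set_option linter.unusedSectionVars false

open IsLocalRing GaloisRep

namespace Fermat.Agent.S53

/-- The data fixed once and for all in the construction of the universal ring. -/
structure Setup (𝒪 : Type) [CommRing 𝒪] [IsLocalRing 𝒪] (X : Type) (ξ₀ : X → 𝒪)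
    (F : ∀ (A : Type) [CommRing A] [IsLocalRing A] [Algebra 𝒪 A], (X → A) → Prop) where
  hF : FunctorAxioms 𝒪 X ξ₀ F
  ϖ : 𝒪
  hϖ : maximalIdeal 𝒪 = Ideal.span {ϖ}
  d : ℕ
  t : Fin d → MvPolynomial X 𝒪
  ht_mem : ∀ i, t i ∈ augIdeal 𝒪 X ξ₀
  ht : ∀ p ∈ augIdeal 𝒪 X ξ₀, ∃ i, p - t i ∈ tangentIdeal ξ₀ F

namespace Setup

variable {𝒪 : Type} [CommRing 𝒪] [IsLocalRing 𝒪] {X : Type} {ξ₀ : X → 𝒪}
variable {F : ∀ (A : Type) [CommRing A] [IsLocalRing A] [Algebra 𝒪 A], (X → A) → Prop}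
variable (S : Setup 𝒪 X ξ₀ F)

/-- The power series ring. -/
abbrev P : Type := MvPowerSeries (Option (Fin S.d)) 𝒪

theorem ϖ_mem : S.ϖ ∈ maximalIdeal 𝒪 := by
  rw [S.hϖ]; exact Ideal.mem_span_singleton_self _

/-- The images of the generators in `Pol ⧸ J`. -/
noncomputable def g (J : Ideal (MvPolynomial X 𝒪)) : Option (Fin S.d) → MvPolynomial X 𝒪 ⧸ J :=
  fun o => Ideal.Quotient.mk J (gen S.ϖ S.t o)

theorem gen_mem (o : Option (Fin S.d)) : gen S.ϖ S.t o ∈ augIdeal 𝒪 X ξ₀ :=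
  gen_mem_augIdeal S.ϖ_mem S.ht_mem o

theorem span_g_le {J : Ideal (MvPolynomial X 𝒪)} :
    Ideal.span (Set.range (S.g J)) ≤ (augIdeal 𝒪 X ξ₀).map (Ideal.Quotient.mk J) := by
  rw [Ideal.span_le]
  rintro _ ⟨o, rfl⟩
  exact Ideal.mem_map_of_mem _ (S.gen_mem o)

theorem span_g_pow {J : Ideal (MvPolynomial X 𝒪)} {n : ℕ} (hn : augIdeal 𝒪 X ξ₀ ^ n ≤ J) :
    Ideal.span (Set.range (S.g J)) ^ n = ⊥ := by
  rw [eq_bot_iff]
  refine (Ideal.pow_right_mono S.span_g_le n).trans ?_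
  rw [← Ideal.map_pow, Ideal.map_le_iff_le_comap]
  intro p hp
  rw [Ideal.mem_comap, Ideal.mem_bot, Ideal.Quotient.eq_zero_iff_mem]
  exact hn hp

/-- The map `π_J : P → Pol ⧸ J`. -/
noncomputable def π (J : Ideal (MvPolynomial X 𝒪)) (hJ : Good ξ₀ J) :
    S.P →ₐ[𝒪] MvPolynomial X 𝒪 ⧸ J :=
  evalTrunc (S.g J) (Classical.choose hJ.pow_le) (S.span_g_pow (Classical.choose_spec hJ.pow_le))

theorem π_eq {J : Ideal (MvPolynomial X 𝒪)} (hJ : Good ξ₀ J) {n : ℕ}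
    (hn : augIdeal 𝒪 X ξ₀ ^ n ≤ J) : S.π J hJ = evalTrunc (S.g J) n (S.span_g_pow hn) :=
  evalTrunc_congr _ _ _

theorem π_X {J : Ideal (MvPolynomial X 𝒪)} (hJ : Good ξ₀ J) (o : Option (Fin S.d)) :
    S.π J hJ (MvPowerSeries.X o) = S.g J o :=
  evalTrunc_X _ _ _ _

theorem factor_comp_π {J J' : Ideal (MvPolynomial X 𝒪)} (hJ : Good ξ₀ J) (hJ' : Good ξ₀ J')
    (h : J ≤ J') : (Ideal.Quotient.factorₐ 𝒪 h).comp (S.π J hJ) = S.π J' hJ' := by
  obtain ⟨n, hn⟩ := hJ.pow_le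
  rw [S.π_eq hJ hn, S.π_eq hJ' (hn.trans h)]
  exact evalTrunc_comp _ _ _ _ _

theorem factor_π {J J' : Ideal (MvPolynomial X 𝒪)} (hJ : Good ξ₀ J) (hJ' : Good ξ₀ J')
    (h : J ≤ J') (f : S.P) : Ideal.Quotient.factor h (S.π J hJ f) = S.π J' hJ' f :=
  congrArg (fun φ => φ f) (S.factor_comp_π hJ hJ' h)

theorem X_mem_maximalIdeal (o : Option (Fin S.d)) :
    (MvPowerSeries.X o : S.P) ∈ maximalIdeal S.P := by
  rw [mem_maximalIdeal, mem_nonunits_iff, MvPowerSeries.isUnit_iff_constantCoeff,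
    MvPowerSeries.constantCoeff_X]
  exact not_isUnit_zero

/-- Second Nakayama step: `π_J` is surjective for `J ∈ 𝒥`. -/
theorem π_surjective [Finite (ResidueField 𝒪)] {J : Ideal (MvPolynomial X 𝒪)}
    (hJ : InJ ξ₀ F J) : Function.Surjective (S.π J hJ.good) := by
  haveI := hJ.good.isLocalRing
  haveI := hJ.good.finite
  letI : Module S.P (MvPolynomial X 𝒪 ⧸ J) :=
    Module.compHom _ (S.π J hJ.good : S.P →+* MvPolynomial X 𝒪 ⧸ J)
  have hsmul : ∀ (f : S.P) (a : MvPolynomial X 𝒪 ⧸ J), f • a = S.π J hJ.good f * a :=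
    fun _ _ => rfl
  have hfg : (⊤ : Submodule S.P (MvPolynomial X 𝒪 ⧸ J)).FG :=
    Module.Finite.fg_top
  have hjac : maximalIdeal S.P ≤ (⊥ : Ideal S.P).jacobson := maximalIdeal_le_jacobson ⊥
  have key : (⊤ : Submodule S.P (MvPolynomial X 𝒪 ⧸ J)) ≤
      Submodule.span S.P {1} ⊔ maximalIdeal S.P • ⊤ := by
    intro a _
    obtain ⟨c, -, hc⟩ := exists_sub_algebraMap_mem hJ.good.isTest a
    have h1 := maximalIdeal_le_span_gen S.hF S.hϖ S.ht hJ hc
    rw [Ideal.mem_span_range_iff_exists_fun] at h1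
    obtain ⟨b, hb⟩ := h1
    have ha : a = (MvPowerSeries.C c : S.P) • (1 : MvPolynomial X 𝒪 ⧸ J) +
        ∑ o, (MvPowerSeries.X o : S.P) • b o := by
      have h2 : S.π J hJ.good (MvPowerSeries.C c) = algebraMap 𝒪 _ c :=
        (S.π J hJ.good).commutes c
      simp only [hsmul, h2, mul_one, S.π_X]
      rw [← sub_eq_iff_eq_add', ← hb]
      exact Finset.sum_congr rfl fun o _ => mul_comm _ _
    rw [ha]
    refine Submodule.add_mem_sup (Submodule.smul_mem _ _ (Submodule.subset_span rfl)) ?_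
    exact Submodule.sum_mem _ fun o _ =>
      Submodule.smul_mem_smul (S.X_mem_maximalIdeal o) Submodule.mem_top
  have := Submodule.le_of_le_smul_of_le_jacobson_bot hfg hjac key
  intro a
  have ha := this (Submodule.mem_top (x := a))
  rw [Submodule.mem_span_singleton] at ha
  obtain ⟨f, hf⟩ := ha
  exact ⟨f, by rw [← hf, hsmul, mul_one]⟩

end Setup

end Fermat.Agent.S53
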