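import Fermat.Agent.S53.Abstract.Tower

/-!
# Abstract pro-representability, part 8: the universal ring
-/

set_option autoImplicit false
set_option linter.style.haveILetI false
set_option linter.unusedSectionVars false

open IsLocalRing GaloisRep

namespace Fermat.Agent.S53

namespace Setup

variable {𝒪 : Type} [CommRing 𝒪] [IsLocalRing 𝒪] {X : Type} {ξ₀ : X → 𝒪}
variable {F : ∀ (A : Type) [CommRing A] [IsLocalRing A] [Algebra 𝒪 A], (X → A) → Prop}
variable (S : Setup 𝒪 X ξ₀ F)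
variable [IsNoetherianRing 𝒪] [Finite (ResidueField 𝒪)]

/-- The kernel of the map from the power series ring to the universal ring. -/
noncomputable def kerIdeal : Ideal S.P := ⨅ n, RingHom.ker (S.π (S.K n) (S.K_good n))

theorem mem_kerIdeal_iff {f : S.P} : f ∈ S.kerIdeal ↔ ∀ n, S.π (S.K n) (S.K_good n) f = 0 := by
  rw [kerIdeal, Ideal.mem_iInf]
  exact forall_congr' fun n => RingHom.mem_ker

theorem kerIdeal_le_maximalIdeal : S.kerIdeal ≤ maximalIdeal S.P := by
  intro f hf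
  have h0 := (S.mem_kerIdeal_iff.mp hf) 0
  haveI := (S.K_good 0).isLocalRing
  haveI := S.π_isLocalHom (S.K_inJ 0)
  rw [mem_maximalIdeal, mem_nonunits_iff]
  intro hu
  have := hu.map (S.π (S.K 0) (S.K_good 0))
  rw [h0] at this
  exact not_isUnit_zero this

theorem kerIdeal_ne_top : S.kerIdeal ≠ ⊤ := fun h =>
  (maximalIdeal.isMaximal S.P).ne_top (top_le_iff.mp (h ▸ S.kerIdeal_le_maximalIdeal))

/-- The universal ring. -/
abbrev R : Type := S.P ⧸ S.kerIdeal

instance nontrivial_R : Nontrivial S.R := Ideal.Quotient.nontrivial_iff.mpr S.kerIdeal_ne_top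

instance isLocalRing_R : IsLocalRing S.R :=
  IsLocalRing.of_surjective' (Ideal.Quotient.mk S.kerIdeal) Ideal.Quotient.mk_surjective

theorem mk_mem_maximalIdeal_R_iff (f : S.P) :
    Ideal.Quotient.mk S.kerIdeal f ∈ maximalIdeal S.R ↔ f ∈ maximalIdeal S.P := by
  haveI : IsLocalHom (Ideal.Quotient.mk S.kerIdeal) :=
    IsLocalHom.of_surjective _ Ideal.Quotient.mk_surjective
  rw [mem_maximalIdeal, mem_nonunits_iff, mem_maximalIdeal, mem_nonunits_iff]
  constructor
  · intro h hu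
    exact h (hu.map _)
  · intro h hu
    exact h (isUnit_of_map_unit (Ideal.Quotient.mk S.kerIdeal) f hu)

theorem maximalIdeal_R_eq :
    maximalIdeal S.R = (maximalIdeal S.P).map (Ideal.Quotient.mk S.kerIdeal) := by
  ext a
  obtain ⟨f, rfl⟩ := Ideal.Quotient.mk_surjective a
  rw [S.mk_mem_maximalIdeal_R_iff]
  constructor
  · intro hf
    exact Ideal.mem_map_of_mem _ hf
  · intro hf
    rw [Ideal.mem_map_iff_of_surjective _ Ideal.Quotient.mk_surjective] at hf
    obtain ⟨f', hf', hff'⟩ := hf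
    have : f - f' ∈ S.kerIdeal := by
      rw [← Ideal.Quotient.eq_zero_iff_mem, map_sub, hff', sub_self]
    have := add_mem (S.kerIdeal_le_maximalIdeal this) hf'
    rwa [sub_add_cancel] at this

theorem isLocalHom_algebraMap_R : IsLocalHom (algebraMap 𝒪 S.R) := by
  constructor
  intro c hc
  by_contra hnc
  have h1 : (MvPowerSeries.C c : S.P) ∈ maximalIdeal S.P := by
    rw [mem_maximalIdeal, mem_nonunits_iff, MvPowerSeries.isUnit_iff_constantCoeff,
      MvPowerSeries.constantCoeff_C]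
    exact hnc
  have h2 := (S.mk_mem_maximalIdeal_R_iff _).mpr h1
  rw [mem_maximalIdeal, mem_nonunits_iff] at h2
  exact h2 hc

theorem residue_surjective_R :
    Function.Surjective (IsLocalRing.residue S.R ∘ algebraMap 𝒪 S.R) := by
  intro y
  obtain ⟨z, rfl⟩ := residue_surjective (R := S.R) y
  obtain ⟨f, rfl⟩ := Ideal.Quotient.mk_surjective z
  refine ⟨MvPowerSeries.constantCoeff f, ?_⟩
  show residue S.R (Ideal.Quotient.mk _ (MvPowerSeries.C (MvPowerSeries.constantCoeff f))) = _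
  rw [← sub_eq_zero, ← map_sub, ← map_sub, residue_eq_zero_iff, S.mk_mem_maximalIdeal_R_iff,
    mem_maximalIdeal, mem_nonunits_iff, MvPowerSeries.isUnit_iff_constantCoeff, map_sub,
    MvPowerSeries.constantCoeff_C, sub_self]
  exact not_isUnit_zero

/-- The projection of the universal ring onto `Pol ⧸ K n`. -/
noncomputable def ψ (n : ℕ) : S.R →ₐ[𝒪] MvPolynomial X 𝒪 ⧸ S.K n :=
  Ideal.Quotient.liftₐ S.kerIdeal (S.π (S.K n) (S.K_good n))
    (fun f hf => S.mem_kerIdeal_iff.mp hf n)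

theorem ψ_mk (n : ℕ) (f : S.P) :
    S.ψ n (Ideal.Quotient.mk S.kerIdeal f) = S.π (S.K n) (S.K_good n) f := rfl

theorem ψ_surjective (n : ℕ) : Function.Surjective (S.ψ n) := by
  intro a
  obtain ⟨f, rfl⟩ := S.π_surjective (S.K_inJ n) a
  exact ⟨Ideal.Quotient.mk _ f, rfl⟩

theorem factor_ψ {m n : ℕ} (h : m ≤ n) (a : S.R) :
    Ideal.Quotient.factor (S.K_antitone h) (S.ψ n a) = S.ψ m a := by
  obtain ⟨f, rfl⟩ := Ideal.Quotient.mk_surjective a
  rw [ψ_mk, ψ_mk]
  exact S.factor_π _ _ _ f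

theorem eq_zero_of_forall_ψ {a : S.R} (h : ∀ n, S.ψ n a = 0) : a = 0 := by
  obtain ⟨f, rfl⟩ := Ideal.Quotient.mk_surjective a
  rw [Ideal.Quotient.eq_zero_iff_mem, S.mem_kerIdeal_iff]
  exact h

theorem ψ_mem_maximalIdeal_iff (n : ℕ) (a : S.R) :
    haveI := (S.K_good n).isLocalRing
    S.ψ n a ∈ maximalIdeal (MvPolynomial X 𝒪 ⧸ S.K n) ↔ a ∈ maximalIdeal S.R := by
  haveI := (S.K_good n).isLocalRing
  haveI : IsLocalHom (S.ψ n : S.R →+* MvPolynomial X 𝒪 ⧸ S.K n) :=
    IsLocalHom.of_surjective _ (S.ψ_surjective n)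
  rw [mem_maximalIdeal, mem_nonunits_iff, mem_maximalIdeal, mem_nonunits_iff]
  constructor
  · intro h hu
    exact h (hu.map (S.ψ n))
  · intro h hu
    exact h (isUnit_of_map_unit (S.ψ n : S.R →+* MvPolynomial X 𝒪 ⧸ S.K n) a hu)

theorem map_ψ_maximalIdeal (n : ℕ) :
    haveI := (S.K_good n).isLocalRing
    (maximalIdeal S.R).map (S.ψ n) = maximalIdeal (MvPolynomial X 𝒪 ⧸ S.K n) := by
  haveI := (S.K_good n).isLocalRing
  apply le_antisymm
  · rw [Ideal.map_le_iff_le_comap]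
    intro a ha
    exact (S.ψ_mem_maximalIdeal_iff n a).mpr ha
  · intro a ha
    obtain ⟨b, rfl⟩ := S.ψ_surjective n a
    exact Ideal.mem_map_of_mem _ ((S.ψ_mem_maximalIdeal_iff n b).mp ha)

theorem map_ψ_maximalIdeal_pow (n k : ℕ) :
    haveI := (S.K_good n).isLocalRing
    (maximalIdeal S.R ^ k).map (S.ψ n) = maximalIdeal (MvPolynomial X 𝒪 ⧸ S.K n) ^ k := by
  haveI := (S.K_good n).isLocalRing
  rw [Ideal.map_pow, S.map_ψ_maximalIdeal]

theorem ψ_eq_zero_of_mem_pow {n k : ℕ} (hk : n + 1 ≤ k) {a : S.R}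
    (ha : a ∈ maximalIdeal S.R ^ k) : S.ψ n a = 0 := by
  haveI := (S.K_good n).isLocalRing
  have h1 := Ideal.mem_map_of_mem (S.ψ n) (Ideal.pow_le_pow_right hk ha)
  rw [S.map_ψ_maximalIdeal_pow, (S.K_good n).pow_maximalIdeal_eq_bot (S.pow_le_K n)] at h1
  exact (Ideal.mem_bot).mp h1

end Setup

end Fermat.Agent.S53
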