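import Fermat.Agent.S53.Abstract.Lattice

/-!
# Abstract pro-representability, part 3: the tangent bound

Homomorphisms to the dual numbers separate the points of a test algebra with `𝔪² = 0` and
`𝔪_𝒪 A = 0`.
-/

set_option autoImplicit false
set_option linter.style.haveILetI false
set_option linter.unusedSectionVars false

open IsLocalRing GaloisRep

namespace Fermat.Agent.S53

section DualNumber

variable (𝒪 : Type) [CommRing 𝒪] [IsLocalRing 𝒪]

theorem finite_dualNumber [Finite (ResidueField 𝒪)] : Finite (DualNumber (ResidueField 𝒪)) :=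
  inferInstanceAs (Finite (ResidueField 𝒪 × ResidueField 𝒪))

theorem algebraMap_dualAlg (c : 𝒪) :
    letI := dualAlg 𝒪
    algebraMap 𝒪 (DualNumber (ResidueField 𝒪)) c = TrivSqZeroExt.inl (residue 𝒪 c) := rfl

theorem isArtinianTestAlgebra_dualNumber [Finite (ResidueField 𝒪)] :
    letI := dualAlg 𝒪
    IsArtinianTestAlgebra 𝒪 (DualNumber (ResidueField 𝒪)) := by
  letI := dualAlg 𝒪
  haveI := finite_dualNumber 𝒪
  refine ⟨⟨?_⟩, ?_, inferInstance⟩
  · intro a ha
    rw [algebraMap_dualAlg, TrivSqZeroExt.isUnit_iff_isUnit_fst, TrivSqZeroExt.fst_inl] at ha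
    by_contra h
    have h0 : residue 𝒪 a = 0 := (residue_eq_zero_iff a).mpr ((mem_maximalIdeal a).mpr h)
    rw [h0] at ha
    exact not_isUnit_zero ha
  · intro y
    obtain ⟨z, rfl⟩ := residue_surjective (R := DualNumber (ResidueField 𝒪)) y
    obtain ⟨a, ha⟩ := residue_surjective (R := 𝒪) z.fst
    refine ⟨a, ?_⟩
    show residue _ (algebraMap 𝒪 (DualNumber (ResidueField 𝒪)) a) = residue _ z
    rw [← sub_eq_zero, ← map_sub, residue_eq_zero_iff, mem_maximalIdeal, mem_nonunits_iff,
      TrivSqZeroExt.isUnit_iff_isUnit_fst, algebraMap_dualAlg, TrivSqZeroExt.fst_sub,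
      TrivSqZeroExt.fst_inl, ha, sub_self]
    exact not_isUnit_zero

end DualNumber

section Separation

variable {𝒪 : Type} [CommRing 𝒪] [IsLocalRing 𝒪]
variable {A : Type} [CommRing A] [IsLocalRing A] [Algebra 𝒪 A]

theorem residueField_map_bijective_of_test (hA : IsArtinianTestAlgebra 𝒪 A) :
    haveI := hA.isLocalHom
    Function.Bijective (ResidueField.map (algebraMap 𝒪 A)) :=
  haveI := hA.isLocalHom
  ⟨(ResidueField.map (algebraMap 𝒪 A)).injective, residueField_map_surjective_of_test hA⟩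

/-- The residue map of a test algebra, with values in the residue field of `𝒪`. -/
noncomputable def resTo (hA : IsArtinianTestAlgebra 𝒪 A) : A →+* ResidueField 𝒪 :=
  haveI := hA.isLocalHom
  ((RingEquiv.ofBijective (ResidueField.map (algebraMap 𝒪 A))
    (residueField_map_bijective_of_test hA)).symm : ResidueField A →+* ResidueField 𝒪).comp
    (residue A)

theorem resTo_eq_iff (hA : IsArtinianTestAlgebra 𝒪 A) (b : A) (β : ResidueField 𝒪) :
    haveI := hA.isLocalHom
    resTo hA b = β ↔ residue A b = ResidueField.map (algebraMap 𝒪 A) β := by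
  haveI := hA.isLocalHom
  show (RingEquiv.ofBijective (ResidueField.map (algebraMap 𝒪 A))
    (residueField_map_bijective_of_test hA)).symm (residue A b) = β ↔ _
  rw [RingEquiv.symm_apply_eq]
  rfl

theorem resTo_algebraMap (hA : IsArtinianTestAlgebra 𝒪 A) (c : 𝒪) :
    resTo hA (algebraMap 𝒪 A c) = residue 𝒪 c := by
  haveI := hA.isLocalHom
  rw [resTo_eq_iff, ResidueField.map_residue]

theorem resTo_eq_zero_iff (hA : IsArtinianTestAlgebra 𝒪 A) (b : A) :
    resTo hA b = 0 ↔ b ∈ maximalIdeal A := by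
  haveI := hA.isLocalHom
  rw [resTo_eq_iff, map_zero, residue_eq_zero_iff]

theorem exists_sub_algebraMap_mem (hA : IsArtinianTestAlgebra 𝒪 A) (b : A) :
    ∃ c : 𝒪, residue 𝒪 c = resTo hA b ∧ b - algebraMap 𝒪 A c ∈ maximalIdeal A := by
  obtain ⟨c, hc⟩ := residue_surjective (R := 𝒪) (resTo hA b)
  refine ⟨c, hc, ?_⟩
  rw [← resTo_eq_zero_iff hA, map_sub, resTo_algebraMap, hc, sub_self]

/-- Homomorphisms to the dual numbers separate points. -/
theorem exists_algHom_dualNumber_ne_zero (hA : IsArtinianTestAlgebra 𝒪 A)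
    (hsq : maximalIdeal A ^ 2 = ⊥) (hϖ : ∀ c ∈ maximalIdeal 𝒪, algebraMap 𝒪 A c = 0)
    {a : A} (ha : a ≠ 0) :
    letI := dualAlg 𝒪
    ∃ ψ : A →ₐ[𝒪] DualNumber (ResidueField 𝒪),
      IsLocalHom (ψ : A →+* DualNumber (ResidueField 𝒪)) ∧ ψ a ≠ 0 := by
  letI := dualAlg 𝒪
  haveI := hA.isLocalHom
  -- the `k`-vector space structure on `A`
  have htors : Module.IsTorsionBySet 𝒪 A (maximalIdeal 𝒪 : Set 𝒪) := by
    intro x c
    rw [Algebra.smul_def, hϖ c.1 c.2, zero_mul]
  letI modk : Module (ResidueField 𝒪) A := htors.module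
  have hsmul : ∀ (c : 𝒪) (x : A), (residue 𝒪 c) • x = algebraMap 𝒪 A c * x := by
    intro c x
    rw [← Algebra.smul_def]
    exact htors.mk_smul c x
  -- the linear functional
  obtain ⟨f, hf1, hfa⟩ : ∃ f : A →ₗ[ResidueField 𝒪] ResidueField 𝒪,
      f 1 = 0 ∧ (a ∈ maximalIdeal A → f a ≠ 0) := by
    by_cases hma : a ∈ maximalIdeal A
    · have hnot : a ∉ Submodule.span (ResidueField 𝒪) ({1} : Set A) := by
        intro hmem
        rw [Submodule.mem_span_singleton] at hmem
        obtain ⟨β, hβ⟩ := hmem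
        obtain ⟨c, rfl⟩ := residue_surjective (R := 𝒪) β
        rw [hsmul, mul_one] at hβ
        rw [← hβ] at hma
        have hc : c ∈ maximalIdeal 𝒪 := by
          by_contra hc
          have hu : IsUnit c := by
            by_contra h1
            exact hc ((mem_maximalIdeal c).mpr h1)
          have := hu.map (algebraMap 𝒪 A)
          rw [mem_maximalIdeal, mem_nonunits_iff] at hma
          exact hma this
        rw [hϖ c hc] at hβ
        exact ha hβ.symm
      obtain ⟨f, hfa, hf⟩ := Submodule.exists_dual_map_eq_bot_of_notMem hnot inferInstance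
      refine ⟨f, ?_, fun _ => hfa⟩
      have h1 : f 1 ∈ Submodule.map f (Submodule.span (ResidueField 𝒪) ({1} : Set A)) :=
        Submodule.mem_map_of_mem (Submodule.subset_span rfl)
      rw [hf] at h1
      exact (Submodule.mem_bot _).mp h1
    · exact ⟨0, rfl, fun h => absurd h hma⟩
  have hfalg : ∀ (c : 𝒪) (x : A), f (algebraMap 𝒪 A c * x) = residue 𝒪 c * f x := by
    intro c x
    rw [← hsmul, map_smul, smul_eq_mul]
  have hfm : ∀ (b : A) (c : 𝒪), b - algebraMap 𝒪 A c ∈ maximalIdeal A →
      f (b - algebraMap 𝒪 A c) = f b := by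
    intro b c _
    rw [map_sub, ← mul_one (algebraMap 𝒪 A c), hfalg, hf1, mul_zero, sub_zero]
  have hmm : ∀ m m' : A, m ∈ maximalIdeal A → m' ∈ maximalIdeal A → m * m' = 0 := by
    intro m m' hm hm'
    have : m * m' ∈ maximalIdeal A ^ 2 := by
      rw [pow_two]
      exact Ideal.mul_mem_mul hm hm'
    rw [hsq] at this
    exact (Ideal.mem_bot).mp this
  have hfmul : ∀ b b' : A, f (b * b') = resTo hA b * f b' + resTo hA b' * f b := by
    intro b b'
    obtain ⟨c, hc, hm⟩ := exists_sub_algebraMap_mem hA b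
    obtain ⟨c', hc', hm'⟩ := exists_sub_algebraMap_mem hA b'
    have hdecomp : b * b' = algebraMap 𝒪 A c * b' + algebraMap 𝒪 A c' * (b - algebraMap 𝒪 A c)
        + (b - algebraMap 𝒪 A c) * (b' - algebraMap 𝒪 A c') := by ring
    rw [hdecomp, hmm _ _ hm hm', add_zero, map_add, hfalg, hfalg, hfm b c hm, hc, hc']
  -- the homomorphism
  let ψ₀ : A →+* DualNumber (ResidueField 𝒪) :=
    { toFun := fun b => TrivSqZeroExt.inl (resTo hA b) + TrivSqZeroExt.inr (f b)
      map_one' := by
        rw [map_one, hf1, TrivSqZeroExt.inr_zero, add_zero, TrivSqZeroExt.inl_one]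
      map_mul' := by
        intro b b'
        apply TrivSqZeroExt.ext
        · simp
        · simp only [TrivSqZeroExt.snd_add, TrivSqZeroExt.snd_inl, TrivSqZeroExt.snd_inr,
            zero_add, TrivSqZeroExt.snd_mul, TrivSqZeroExt.fst_add, TrivSqZeroExt.fst_inl,
            TrivSqZeroExt.fst_inr, add_zero, smul_eq_mul, MulOpposite.smul_eq_mul_unop,
            MulOpposite.unop_op]
          rw [hfmul]
          ring
      map_zero' := by
        rw [map_zero, map_zero, TrivSqZeroExt.inr_zero, add_zero, TrivSqZeroExt.inl_zero]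
      map_add' := by
        intro b b'
        rw [map_add, map_add, TrivSqZeroExt.inl_add, TrivSqZeroExt.inr_add]
        abel }
  let ψ : A →ₐ[𝒪] DualNumber (ResidueField 𝒪) :=
    { ψ₀ with
      commutes' := by
        intro c
        show TrivSqZeroExt.inl (resTo hA (algebraMap 𝒪 A c)) +
          TrivSqZeroExt.inr (f (algebraMap 𝒪 A c)) = _
        rw [resTo_algebraMap, ← mul_one (algebraMap 𝒪 A c), hfalg, hf1, mul_zero,
          TrivSqZeroExt.inr_zero, add_zero, algebraMap_dualAlg] }
  have hψ : ∀ b, ψ b = TrivSqZeroExt.inl (resTo hA b) + TrivSqZeroExt.inr (f b) := fun b => rfl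
  refine ⟨ψ, ⟨?_⟩, ?_⟩
  · intro b hb
    have hb' : IsUnit (ψ b) := hb
    rw [TrivSqZeroExt.isUnit_iff_isUnit_fst, hψ] at hb'
    simp only [TrivSqZeroExt.fst_add, TrivSqZeroExt.fst_inl, TrivSqZeroExt.fst_inr,
      add_zero] at hb'
    by_contra hnu
    have := (resTo_eq_zero_iff hA b).mpr ((mem_maximalIdeal b).mpr hnu)
    rw [this] at hb'
    exact not_isUnit_zero hb'
  · intro h0
    rw [hψ] at h0
    by_cases hma : a ∈ maximalIdeal A
    · have := congrArg TrivSqZeroExt.snd h0
      simp only [TrivSqZeroExt.snd_add, TrivSqZeroExt.snd_inl, TrivSqZeroExt.snd_inr,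
        zero_add, TrivSqZeroExt.snd_zero] at this
      exact hfa hma this
    · have := congrArg TrivSqZeroExt.fst h0
      simp only [TrivSqZeroExt.fst_add, TrivSqZeroExt.fst_inl, TrivSqZeroExt.fst_inr,
        add_zero, TrivSqZeroExt.fst_zero] at this
      exact hma ((resTo_eq_zero_iff hA a).mp this)

end Separation

end Fermat.Agent.S53
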