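import Fermat.Agent.S53.Abstract.PiJ

/-!
# Abstract pro-representability, part 7: the tower of minimal ideals
-/

set_option autoImplicit false
set_option linter.style.haveILetI false
set_option linter.unusedSectionVars false

open IsLocalRing GaloisRep

namespace Fermat.Agent.S53

namespace Setup

variable {𝒪 : Type} [CommRing 𝒪] [IsLocalRing 𝒪] {X : Type} {ξ₀ : X → 𝒪}
variable {F : ∀ (A : Type) [CommRing A] [IsLocalRing A] [Algebra 𝒪 A], (X → A) → Prop}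
variable (S : Setup 𝒪 X ξ₀ F)

theorem finite_quotient_maximalIdeal_P [Finite (ResidueField 𝒪)] :
    Finite (S.P ⧸ maximalIdeal S.P) := by
  let φ : 𝒪 →+* S.P ⧸ maximalIdeal S.P :=
    (Ideal.Quotient.mk (maximalIdeal S.P)).comp (MvPowerSeries.C : 𝒪 →+* S.P)
  have hφ : ∀ c ∈ maximalIdeal 𝒪, φ c = 0 := by
    intro c hc
    show Ideal.Quotient.mk _ (MvPowerSeries.C c) = 0
    rw [Ideal.Quotient.eq_zero_iff_mem, mem_maximalIdeal, mem_nonunits_iff,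
      MvPowerSeries.isUnit_iff_constantCoeff, MvPowerSeries.constantCoeff_C]
    exact (mem_maximalIdeal c).mp hc
  let φ' : ResidueField 𝒪 →+* S.P ⧸ maximalIdeal S.P := Ideal.Quotient.lift _ φ hφ
  apply Finite.of_surjective φ'
  intro y
  obtain ⟨f, rfl⟩ := Ideal.Quotient.mk_surjective y
  refine ⟨residue 𝒪 (MvPowerSeries.constantCoeff f), ?_⟩
  show Ideal.Quotient.mk _ (MvPowerSeries.C (MvPowerSeries.constantCoeff f)) = _
  rw [Ideal.Quotient.eq, mem_maximalIdeal, mem_nonunits_iff,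
    MvPowerSeries.isUnit_iff_constantCoeff, map_sub, MvPowerSeries.constantCoeff_C, sub_self]
  exact not_isUnit_zero

theorem finite_quotient_maximalIdeal_pow_P [IsNoetherianRing 𝒪] [Finite (ResidueField 𝒪)]
    (n : ℕ) : Finite (S.P ⧸ maximalIdeal S.P ^ n) := by
  haveI := S.finite_quotient_maximalIdeal_P
  exact Ideal.finite_quotient_pow ((isNoetherianRing_iff_ideal_fg _).mp inferInstance _) n

theorem π_isLocalHom [Finite (ResidueField 𝒪)] {J : Ideal (MvPolynomial X 𝒪)}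
    (hJ : InJ ξ₀ F J) :
    haveI := hJ.good.isLocalRing
    IsLocalHom (S.π J hJ.good : S.P →+* MvPolynomial X 𝒪 ⧸ J) := by
  haveI := hJ.good.isLocalRing
  exact IsLocalHom.of_surjective _ (S.π_surjective hJ)

theorem π_mem_maximalIdeal [Finite (ResidueField 𝒪)] {J : Ideal (MvPolynomial X 𝒪)}
    (hJ : InJ ξ₀ F J) {f : S.P} (hf : f ∈ maximalIdeal S.P) :
    haveI := hJ.good.isLocalRing
    S.π J hJ.good f ∈ maximalIdeal (MvPolynomial X 𝒪 ⧸ J) := by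
  haveI := hJ.good.isLocalRing
  haveI := S.π_isLocalHom hJ
  rw [mem_maximalIdeal, mem_nonunits_iff] at hf ⊢
  intro hu
  exact hf (isUnit_of_map_unit (S.π J hJ.good : S.P →+* MvPolynomial X 𝒪 ⧸ J) f hu)

theorem map_π_maximalIdeal [Finite (ResidueField 𝒪)] {J : Ideal (MvPolynomial X 𝒪)}
    (hJ : InJ ξ₀ F J) :
    haveI := hJ.good.isLocalRing
    (maximalIdeal S.P).map (S.π J hJ.good) = maximalIdeal (MvPolynomial X 𝒪 ⧸ J) := by
  haveI := hJ.good.isLocalRing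
  apply le_antisymm
  · rw [Ideal.map_le_iff_le_comap]
    intro f hf
    exact S.π_mem_maximalIdeal hJ hf
  · intro a ha
    obtain ⟨f, rfl⟩ := S.π_surjective hJ a
    apply Ideal.mem_map_of_mem
    rw [mem_maximalIdeal, mem_nonunits_iff] at ha ⊢
    intro hu
    exact ha (hu.map (S.π J hJ.good))

theorem π_pow_eq_zero [Finite (ResidueField 𝒪)] {J : Ideal (MvPolynomial X 𝒪)}
    (hJ : InJ ξ₀ F J) {n : ℕ} (hn : augIdeal 𝒪 X ξ₀ ^ n ≤ J) {f : S.P}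
    (hf : f ∈ maximalIdeal S.P ^ n) : S.π J hJ.good f = 0 := by
  haveI := hJ.good.isLocalRing
  have h1 : (maximalIdeal S.P ^ n).map (S.π J hJ.good) = ⊥ := by
    rw [Ideal.map_pow, S.map_π_maximalIdeal hJ, hJ.good.pow_maximalIdeal_eq_bot hn]
  have := Ideal.mem_map_of_mem (S.π J hJ.good) hf
  rw [h1] at this
  exact (Ideal.mem_bot).mp this

theorem card_le [IsNoetherianRing 𝒪] [Finite (ResidueField 𝒪)]
    {J : Ideal (MvPolynomial X 𝒪)} (hJ : InJ ξ₀ F J) {n : ℕ}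
    (hn : augIdeal 𝒪 X ξ₀ ^ n ≤ J) :
    Nat.card (MvPolynomial X 𝒪 ⧸ J) ≤ Nat.card (S.P ⧸ maximalIdeal S.P ^ n) := by
  haveI := S.finite_quotient_maximalIdeal_pow_P n
  let φ : (S.P ⧸ maximalIdeal S.P ^ n) →+* MvPolynomial X 𝒪 ⧸ J :=
    Ideal.Quotient.lift _ (S.π J hJ.good : S.P →+* MvPolynomial X 𝒪 ⧸ J)
      (fun f hf => S.π_pow_eq_zero hJ hn hf)
  apply Nat.card_le_card_of_surjective φ
  intro a
  obtain ⟨f, rfl⟩ := S.π_surjective hJ a
  exact ⟨Ideal.Quotient.mk _ f, rfl⟩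

/-- The set of ideals in `𝒥` containing `augIdeal ^ (n + 1)`. -/
def levelSet (_S : Setup 𝒪 X ξ₀ F) (n : ℕ) : Set (Ideal (MvPolynomial X 𝒪)) :=
  {J | InJ ξ₀ F J ∧ augIdeal 𝒪 X ξ₀ ^ (n + 1) ≤ J}

theorem augIdeal_mem_levelSet [Finite (ResidueField 𝒪)] (n : ℕ) :
    augIdeal 𝒪 X ξ₀ ∈ S.levelSet n :=
  ⟨inJ_augIdeal S.hF, Ideal.pow_le_self (Nat.succ_ne_zero n)⟩

theorem exists_min_levelSet [IsNoetherianRing 𝒪] [Finite (ResidueField 𝒪)] (n : ℕ) :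
    ∃ J ∈ S.levelSet n, ∀ J' ∈ S.levelSet n, J ≤ J' := by
  set C : Set ℕ := {m | ∃ J ∈ S.levelSet n, Nat.card (MvPolynomial X 𝒪 ⧸ J) = m} with hC
  have hne : C.Nonempty := ⟨_, augIdeal 𝒪 X ξ₀, S.augIdeal_mem_levelSet n, rfl⟩
  have hbdd : BddAbove C := by
    refine ⟨Nat.card (S.P ⧸ maximalIdeal S.P ^ (n + 1)), ?_⟩
    rintro m ⟨J, hJ, rfl⟩
    exact S.card_le hJ.1 hJ.2
  obtain ⟨J, hJ, hJcard⟩ := Nat.sSup_mem hne hbdd
  refine ⟨J, hJ, fun J' hJ' => ?_⟩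
  have hmem : J ⊓ J' ∈ S.levelSet n := ⟨hJ.1.inf S.hF hJ'.1, le_inf hJ.2 hJ'.2⟩
  have h1 : Nat.card (MvPolynomial X 𝒪 ⧸ J ⊓ J') ≤ Nat.card (MvPolynomial X 𝒪 ⧸ J) := by
    rw [hJcard]
    exact le_csSup hbdd ⟨_, hmem, rfl⟩
  haveI := hmem.1.good.finite
  haveI := hJ.1.good.finite
  have hsurj : Function.Surjective
      (Ideal.Quotient.factor (inf_le_left : J ⊓ J' ≤ J)) :=
    Ideal.Quotient.factor_surjective _
  have h2 : Nat.card (MvPolynomial X 𝒪 ⧸ J) ≤ Nat.card (MvPolynomial X 𝒪 ⧸ J ⊓ J') :=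
    Nat.card_le_card_of_surjective _ hsurj
  have hbij : Function.Bijective (Ideal.Quotient.factor (inf_le_left : J ⊓ J' ≤ J)) :=
    (Nat.bijective_iff_surjective_and_card _).mpr ⟨hsurj, le_antisymm h1 h2⟩
  intro p hp
  have h3 : Ideal.Quotient.factor (inf_le_left : J ⊓ J' ≤ J) (Ideal.Quotient.mk _ p) =
      Ideal.Quotient.factor (inf_le_left : J ⊓ J' ≤ J) 0 := by
    rw [Ideal.Quotient.factor_mk, map_zero, Ideal.Quotient.eq_zero_iff_mem]
    exact hp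
  have h4 := hbij.1 h3
  rw [Ideal.Quotient.eq_zero_iff_mem] at h4
  exact h4.2

/-- The minimal ideal of level `n`. -/
noncomputable def K [IsNoetherianRing 𝒪] [Finite (ResidueField 𝒪)] (n : ℕ) :
    Ideal (MvPolynomial X 𝒪) :=
  Classical.choose (S.exists_min_levelSet n)

section K

variable [IsNoetherianRing 𝒪] [Finite (ResidueField 𝒪)]

theorem K_mem (n : ℕ) : S.K n ∈ S.levelSet n :=
  (Classical.choose_spec (S.exists_min_levelSet n)).1

theorem K_inJ (n : ℕ) : InJ ξ₀ F (S.K n) := (S.K_mem n).1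

theorem K_good (n : ℕ) : Good ξ₀ (S.K n) := (S.K_inJ n).good

theorem pow_le_K (n : ℕ) : augIdeal 𝒪 X ξ₀ ^ (n + 1) ≤ S.K n := (S.K_mem n).2

theorem K_le {n : ℕ} {J : Ideal (MvPolynomial X 𝒪)} (hJ : InJ ξ₀ F J)
    (hn : augIdeal 𝒪 X ξ₀ ^ (n + 1) ≤ J) : S.K n ≤ J :=
  (Classical.choose_spec (S.exists_min_levelSet n)).2 J ⟨hJ, hn⟩

theorem K_antitone {m n : ℕ} (h : m ≤ n) : S.K n ≤ S.K m :=
  S.K_le (S.K_inJ m) ((Ideal.pow_le_pow_right (Nat.succ_le_succ h)).trans (S.pow_le_K m))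

theorem K_le_sup (n : ℕ) : S.K n ≤ S.K (n + 1) ⊔ augIdeal 𝒪 X ξ₀ ^ (n + 1) := by
  apply S.K_le _ le_sup_right
  exact (S.K_inJ (n + 1)).of_le S.hF le_sup_left
    (sup_le (S.K_good (n + 1)).le (Ideal.pow_le_self (Nat.succ_ne_zero n)))

theorem exists_K_le {J : Ideal (MvPolynomial X 𝒪)} (hJ : InJ ξ₀ F J) : ∃ n, S.K n ≤ J := by
  obtain ⟨n, hn⟩ := hJ.good.pow_le
  exact ⟨n, S.K_le hJ ((Ideal.pow_le_pow_right (Nat.le_succ n)).trans hn)⟩

end K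

end Setup

end Fermat.Agent.S53
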