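import Fermat.Agent.S53.Abstract.Limit
import Fermat.Agent.S53.Quot

/-!
# Abstract pro-representability, part 11: the universal family and its universal property
-/

set_option autoImplicit false
set_option linter.style.haveILetI false
set_option linter.unusedSectionVars false

open IsLocalRing GaloisRep

namespace Fermat.Agent.S53

section AutoLocal

variable {𝒪 : Type} [CommRing 𝒪]

/-- An `𝒪`-algebra homomorphism from a local ring to a local ring whose residue field is a quotient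
of `𝒪` is automatically local. -/
theorem isLocalHom_of_residue_surjective {R A : Type} [CommRing R] [IsLocalRing R] [CommRing A]
    [IsLocalRing A] [Algebra 𝒪 R] [Algebra 𝒪 A]
    (hA : Function.Surjective (IsLocalRing.residue A ∘ algebraMap 𝒪 A)) (φ : R →ₐ[𝒪] A) :
    IsLocalHom (φ : R →+* A) := by
  constructor
  intro a ha
  by_contra hna
  have ha' : IsUnit (φ a) := ha
  obtain ⟨u, hu⟩ := ha'
  obtain ⟨c, hc⟩ := hA (residue A (↑u⁻¹ : A))
  have hm : (↑u⁻¹ : A) - algebraMap 𝒪 A c ∈ maximalIdeal A := by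
    rw [← residue_eq_zero_iff, map_sub, sub_eq_zero]
    exact hc.symm
  have ham : a ∈ maximalIdeal R := (mem_maximalIdeal a).mpr hna
  have hr : IsUnit (1 - a * algebraMap 𝒪 R c) := by
    by_contra h
    have h1 : 1 - a * algebraMap 𝒪 R c ∈ maximalIdeal R := (mem_maximalIdeal _).mpr h
    have h2 := add_mem h1 (Ideal.mul_mem_right (algebraMap 𝒪 R c) _ ham)
    rw [sub_add_cancel] at h2
    exact (Ideal.ne_top_iff_one _).mp (maximalIdeal.isMaximal R).ne_top h2
  have hφr : φ (1 - a * algebraMap 𝒪 R c) = φ a * ((↑u⁻¹ : A) - algebraMap 𝒪 A c) := by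
    rw [map_sub, map_one, map_mul, AlgHom.commutes, mul_sub, ← hu, Units.mul_inv]
  have h3 : IsUnit (φ (1 - a * algebraMap 𝒪 R c)) := hr.map φ
  rw [hφr] at h3
  have h4 := Ideal.mul_mem_left (maximalIdeal A) (φ a) hm
  rw [mem_maximalIdeal, mem_nonunits_iff] at h4
  exact h4 h3

end AutoLocal

namespace Setup

variable {𝒪 : Type} [CommRing 𝒪] [IsLocalRing 𝒪] {X : Type} {ξ₀ : X → 𝒪}
variable {F : ∀ (A : Type) [CommRing A] [IsLocalRing A] [Algebra 𝒪 A], (X → A) → Prop}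
variable (S : Setup 𝒪 X ξ₀ F)
variable [IsNoetherianRing 𝒪] [Finite (ResidueField 𝒪)]

theorem exists_ξR (x : X) : ∃ a : S.R, ∀ n, S.ψ n a = tautFam (S.K n) x :=
  S.exists_of_compatible (fun n => tautFam (S.K n) x) (fun _ => rfl)

/-- The universal family. -/
noncomputable def ξR (x : X) : S.R := Classical.choose (S.exists_ξR x)

theorem ψ_ξR (n : ℕ) (x : X) : S.ψ n (S.ξR x) = tautFam (S.K n) x :=
  Classical.choose_spec (S.exists_ξR x) n

/-- The evaluation at the universal family. -/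
noncomputable def Θ : MvPolynomial X 𝒪 →ₐ[𝒪] S.R := MvPolynomial.aeval S.ξR

theorem ψ_Θ (n : ℕ) (p : MvPolynomial X 𝒪) : S.ψ n (S.Θ p) = Ideal.Quotient.mk (S.K n) p := by
  have h : (S.ψ n).comp S.Θ = Ideal.Quotient.mkₐ 𝒪 (S.K n) := by
    apply MvPolynomial.algHom_ext
    intro x
    rw [AlgHom.comp_apply, Θ, MvPolynomial.aeval_X, S.ψ_ξR]
    rfl
  exact congrArg (fun f => f p) h

/-- The universal ring is topologically generated by the universal family. -/
theorem exists_sub_Θ_mem (a : S.R) (m : ℕ) :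
    ∃ p : MvPolynomial X 𝒪, a - S.Θ p ∈ maximalIdeal S.R ^ (m + 1) := by
  obtain ⟨p, hp⟩ := Ideal.Quotient.mk_surjective (S.ψ m a)
  refine ⟨p, S.mem_pow_of_ψ_eq_zero ?_⟩
  rw [map_sub, S.ψ_Θ, hp, sub_self]

theorem ξR_sub_mem (x : X) : S.ξR x - algebraMap 𝒪 S.R (ξ₀ x) ∈ maximalIdeal S.R := by
  haveI := (S.K_good 0).isLocalRing
  rw [← S.ψ_mem_maximalIdeal_iff 0, map_sub, S.ψ_ξR, AlgHom.commutes]
  exact ((S.K_good 0).mk_mem_maximalIdeal_iff _).mpr (X_sub_C_mem_augIdeal x)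

/-- Two algebra homomorphisms killing a power of the maximal ideal and agreeing on the universal
family are equal. -/
theorem algHom_ext_of_pow {B : Type} [CommRing B] [Algebra 𝒪 B] {α β : S.R →ₐ[𝒪] B} {m : ℕ}
    (hα : ∀ a ∈ maximalIdeal S.R ^ (m + 1), α a = 0)
    (hβ : ∀ a ∈ maximalIdeal S.R ^ (m + 1), β a = 0)
    (h : ∀ x, α (S.ξR x) = β (S.ξR x)) : α = β := by
  have hΘ : α.comp S.Θ = β.comp S.Θ := by
    apply MvPolynomial.algHom_ext
    intro x
    rw [AlgHom.comp_apply, AlgHom.comp_apply, Θ, MvPolynomial.aeval_X]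
    exact h x
  apply AlgHom.ext
  intro a
  obtain ⟨p, hp⟩ := S.exists_sub_Θ_mem a m
  have h1 := hα _ hp
  have h2 := hβ _ hp
  rw [map_sub, sub_eq_zero] at h1 h2
  rw [h1, h2]
  exact congrArg (fun f => f p) hΘ

/-- A local homomorphism to a ring with nilpotent maximal ideal kills a power of the maximal
ideal. -/
theorem eq_zero_of_mem_pow_of_isLocalHom {B : Type} [CommRing B] [IsLocalRing B] [Algebra 𝒪 B]
    (q : S.R →ₐ[𝒪] B) (hq : IsLocalHom (q : S.R →+* B)) {n : ℕ}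
    (hn : maximalIdeal B ^ n = ⊥) {a : S.R} (ha : a ∈ maximalIdeal S.R ^ n) : q a = 0 := by
  have h1 : (maximalIdeal S.R ^ n).map q ≤ maximalIdeal B ^ n := by
    rw [Ideal.map_pow]
    apply Ideal.pow_right_mono
    rw [Ideal.map_le_iff_le_comap]
    intro b hb
    rw [Ideal.mem_comap, mem_maximalIdeal, mem_nonunits_iff]
    rw [mem_maximalIdeal, mem_nonunits_iff] at hb
    intro hu
    exact hb (isUnit_of_map_unit (q : S.R →+* B) b hu)
  have := h1 (Ideal.mem_map_of_mem q ha)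
  rw [hn] at this
  exact (Ideal.mem_bot).mp this

/-- Homomorphisms out of `Pol ⧸ K n` induced by families. -/
theorem exists_descent {B : Type} [CommRing B] [IsLocalRing B] [Algebra 𝒪 B]
    (hB : IsArtinianTestAlgebra 𝒪 B) (q : S.R →ₐ[𝒪] B) (hq : IsLocalHom (q : S.R →+* B))
    {n : ℕ} (hn : maximalIdeal B ^ (n + 1) = ⊥) :
    ∃ q' : (MvPolynomial X 𝒪 ⧸ S.K n) →ₐ[𝒪] B, q' ∘ tautFam (S.K n) = q ∘ S.ξR := by
  have hker : ∀ p ∈ S.K n, (MvPolynomial.aeval (q ∘ S.ξR) : MvPolynomial X 𝒪 →ₐ[𝒪] B) p = 0 := by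
    intro p hp
    have h1 : (MvPolynomial.aeval (q ∘ S.ξR) : MvPolynomial X 𝒪 →ₐ[𝒪] B) p = q (S.Θ p) :=
      (MvPolynomial.comp_aeval_apply S.ξR q p).symm
    rw [h1]
    apply S.eq_zero_of_mem_pow_of_isLocalHom q hq hn
    apply S.mem_pow_of_ψ_eq_zero
    rw [S.ψ_Θ, Ideal.Quotient.eq_zero_iff_mem]
    exact hp
  refine ⟨Ideal.Quotient.liftₐ (S.K n) (MvPolynomial.aeval (q ∘ S.ξR)) hker, ?_⟩
  funext x
  show (MvPolynomial.aeval (q ∘ S.ξR) : MvPolynomial X 𝒪 →ₐ[𝒪] B) (MvPolynomial.X x) = _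
  rw [MvPolynomial.aeval_X]

/-- Step (g), `isF`. -/
theorem isF_ξR (B : Type) [CommRing B] [IsLocalRing B] [Algebra 𝒪 B]
    (hB : IsArtinianTestAlgebra 𝒪 B) (q : S.R →ₐ[𝒪] B) (hq : IsLocalHom (q : S.R →+* B)) :
    F B (q ∘ S.ξR) := by
  obtain ⟨n, hn⟩ := exists_pow_maximalIdeal_eq_bot_of_test hB
  have hn' : maximalIdeal B ^ (n + 1) = ⊥ := by
    rw [pow_succ, hn, Ideal.bot_mul]
  obtain ⟨q', hq'⟩ := S.exists_descent hB q hq hn'
  haveI := (S.K_good n).isLocalRing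
  have hloc : IsLocalHom (q' : (MvPolynomial X 𝒪 ⧸ S.K n) →+* B) :=
    isLocalHom_of_residue_surjective hB.residue_surjective q'
  have := S.hF.map _ _ (S.K_good n).isTest hB q' hloc _ (S.K_inJ n).isF
  rwa [hq'] at this

end Setup

end Fermat.Agent.S53
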